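import Fermat.Agent.ThetaLevel.Gauss
import Mathlib.Analysis.Complex.UpperHalfPlane.MoebiusAction
import Mathlib.NumberTheory.LSeries.PrimesInAP
import Mathlib.NumberTheory.ModularForms.CongruenceSubgroups

/-!
# The character of the theta series on `Γ₀(N)`

For `d > 0` the multiplier is a Gauss sum modulo `d`; moving `d` to primes by translations shows
that it is the Legendre symbol of `(-1)^k det A`, a character modulo `N` by Dirichlet's theorem.
-/

set_option autoImplicit false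
set_option linter.unusedSectionVars false

noncomputable section

namespace FA.ThetaLevel

open UpperHalfPlane hiding I
open Complex Matrix Filter CongruenceSubgroup
open CharacteristicVectors (gramVal latTheta toReal)
open IndefiniteUnimodular (val)
open scoped Real Topology MatrixGroups

variable {n k : ℕ} {A B : Matrix (Fin n) (Fin n) ℤ} {N : ℕ}

theorem latTheta_add_int (hA : EvenPositive A) (z : ℂ) (j : ℤ) :
    latTheta A (z + j) = latTheta A z := by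
  refine tsum_congr fun v => ?_
  obtain ⟨e, he⟩ := even_iff_two_dvd.1 (hA.evenForm v)
  refine exp_eq_exp_iff_exists_int.2 ⟨e * j, ?_⟩
  rw [he]
  push_cast
  ring

theorem cosetTheta_zero (A : Matrix (Fin n) (Fin n) ℤ) (z : ℂ) :
    cosetTheta (toReal A) 0 z = latTheta A z := by
  refine tsum_congr fun v => ?_
  rw [zero_add, show realVal (toReal A) (HeckeFE.ofInt v) = gramVal (toReal A) v from rfl,
    CharacteristicVectors.gramVal_toReal, ofReal_intCast]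

theorem phaseTheta_zero (hB : IsLevelDual A B N) (hN : 0 < N) (w : ℂ) :
    phaseTheta (toReal A)⁻¹ 0 w = ∑' m : Fin n → ℤ, cexp (π * I * ((val B m : ℂ) / N) * w) := by
  refine tsum_congr fun m => ?_
  rw [gramVal_inv hB hN]
  simp

theorem qSum_one (p : ℤ) : qSum A p 1 0 = 1 := by
  rw [qSum, Finset.sum_eq_single (0 : Fin n → ZMod 1)
    (fun r _ hr => absurd (Subsingleton.elim r 0) hr) fun h => absurd (Finset.mem_univ _) h]
  simp [val]

/-- The Gauss sums of the translates do not depend on the vector. -/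
theorem qSum_twist (hA : EvenPositive A) (hB : IsLevelDual A B N) {a b c c' : ℤ} {d : ℕ}
    [NeZero d] (hdet : a * d - b * c = 1) (hc : c = N * c') (m : Fin n → ℤ) :
    qSum A b d m * cexp (π * I * ((-(c' * val B m) : ℤ) : ℂ) / d) = qSum A b d 0 := by
  obtain ⟨w, hw⟩ : ∃ w : Fin n → ℤ, w = c' • (B *ᵥ m) := ⟨_, rfl⟩
  have hAw : A *ᵥ w = c • m := by
    rw [hw, Matrix.mulVec_smul, Matrix.mulVec_mulVec, hB.1, Matrix.smul_mulVec, Matrix.one_mulVec,
      smul_smul, mul_comm c', hc]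
  obtain ⟨e, he⟩ := even_iff_two_dvd.1 (hB.evenForm hA m)
  have hmw : m ⬝ᵥ w = c' * (2 * e) := by
    rw [hw, dotProduct_smul, smul_eq_mul, ← he]
    rfl
  have hd : (d : ℤ) ≠ 0 := by exact_mod_cast NeZero.ne d
  obtain ⟨f, hf⟩ : ∃ f : (Fin n → ℤ) → ℂ, ∀ v, f v =
      cexp (π * I * ((b * val A v + 2 * (m ⬝ᵥ v) : ℤ) : ℂ) / d) := ⟨_, fun _ => rfl⟩
  have hper : ∀ v u, f (v + (d : ℤ) • u) = f v := fun v u => by
    rw [hf, hf]
    refine exp_congr_int (NeZero.ne d) ?_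
    rw [add_sub_add_comm, dotProduct_add, mul_add, add_sub_cancel_left, dotProduct_smul,
      smul_eq_mul]
    exact dvd_add (val_add_mul hA b d v u) ⟨m ⬝ᵥ u, by ring⟩
  have hshift : ∑ r : Fin n → ZMod d, f (fun i => ((r i).val : ℤ)) =
      ∑ r : Fin n → ZMod d, f ((fun i => ((r i).val : ℤ)) + w) := by
    rw [← Equiv.sum_comp (Equiv.addRight (fun i => (w i : ZMod d))) fun r : Fin n → ZMod d =>
      f fun i => ((r i).val : ℤ)]
    refine Finset.sum_congr rfl fun r _ => ?_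
    obtain ⟨u, hu⟩ : ∃ u : Fin n → ℤ, ∀ i, ((r i + (w i : ZMod d)).val : ℤ) =
        (r i).val + w i + d * u i := by
      refine ⟨fun i => (((r i + (w i : ZMod d)).val : ℤ) - (r i).val - w i) / d, fun i => ?_⟩
      rw [Int.mul_ediv_cancel' ((ZMod.intCast_zmod_eq_zero_iff_dvd _ d).1 (by
        push_cast
        simp))]
      ring
    rw [show (fun i => (((Equiv.addRight (fun i => (w i : ZMod d))) r i).val : ℤ)) =
      ((fun i => ((r i).val : ℤ)) + w) + (d : ℤ) • u from funext fun i => by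
        simp [hu i], hper]
  rw [qSum, show (∑ r : Fin n → ZMod d, cexp (π * I * ((b * val A (fun i => ((r i).val : ℤ)) +
      2 * (m ⬝ᵥ fun i => ((r i).val : ℤ)) : ℤ) : ℂ) / d)) =
    ∑ r : Fin n → ZMod d, f (fun i => ((r i).val : ℤ)) from
      Finset.sum_congr rfl fun r _ => (hf _).symm, hshift, Finset.sum_mul, qSum]
  refine Finset.sum_congr rfl fun r _ => ?_
  obtain ⟨R, hR⟩ : ∃ R : Fin n → ℤ, R = fun i => ((r i).val : ℤ) := ⟨_, rfl⟩
  rw [← hR, hf, ← Complex.exp_add, zero_dotProduct, mul_zero, add_zero,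
    show π * I * ((b * val A (R + w) + 2 * (m ⬝ᵥ (R + w)) : ℤ) : ℂ) / d +
      π * I * ((-(c' * val B m) : ℤ) : ℂ) / d =
      π * I * ((b * val A (R + w) + 2 * (m ⬝ᵥ (R + w)) + -(c' * val B m) : ℤ) : ℂ) / d by
        push_cast; ring]
  refine exp_congr_int (NeZero.ne d) ⟨a * (m ⬝ᵥ R) + a * (c' * e), ?_⟩
  have hvw : val A w = c * (m ⬝ᵥ w) := by
    rw [val, hAw, dotProduct_smul, smul_eq_mul, dotProduct_comm]
  rw [IndefiniteUnimodular.val_add hA.1, hvw, hAw, dotProduct_smul, smul_eq_mul,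
    dotProduct_comm R m, dotProduct_add, hmw, he]
  linear_combination (-2 * (m ⬝ᵥ R) - 2 * c' * e) * hdet

/-- **The transformation for positive `d`.** -/
theorem theta_gamma_pos (hA : EvenPositive A) (hB : IsLevelDual A B N) (hN : 0 < N)
    (hn : n = 2 * k) {γ : SL(2, ℤ)} {d : ℕ} [NeZero d] (hd : γ 1 1 = d)
    (hc : (N : ℤ) ∣ γ 1 0) (τ : ℍ) :
    latTheta A (γ • τ : ℍ) = qSum A (γ 0 1) d 0 / (d : ℂ) ^ k *
      ((γ 1 0 : ℂ) * τ + (γ 1 1 : ℂ)) ^ k * latTheta A τ := by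
  obtain ⟨c', hc'⟩ := hc
  have hdetγ : γ 0 0 * (d : ℤ) - γ 0 1 * γ 1 0 = 1 := by
    rw [← hd, ← Matrix.det_fin_two γ.1]
    exact γ.2
  have hdC : (d : ℂ) ≠ 0 := Nat.cast_ne_zero.2 (NeZero.ne d)
  have hτ : (τ : ℂ) ≠ 0 := UpperHalfPlane.ne_zero τ
  obtain ⟨den, hden⟩ : ∃ den : ℂ, den = (γ 1 0 : ℂ) * τ + (γ 1 1 : ℂ) := ⟨_, rfl⟩
  have hden0 : den ≠ 0 := by
    rw [hden, hd]
    intro h
    have hi := congrArg Complex.im h
    simp [UpperHalfPlane.im_ne_zero] at hi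
    simp [hi, hdC] at h
  obtain ⟨z, hz⟩ : ∃ z : ℂ, z = τ / (d * den) := ⟨_, rfl⟩
  have hcoe : ((γ • τ : ℍ) : ℂ) = (γ 0 1 : ℂ) / d + z := by
    rw [UpperHalfPlane.specialLinearGroup_apply]
    have h := congrArg (fun t : ℤ => (t : ℂ)) hdetγ
    push_cast at h
    simp only [algebraMap_int_eq, eq_intCast, Complex.ofReal_intCast]
    rw [hz, hden, hd]
    rw [hden, hd] at hden0
    push_cast at hden0 ⊢
    rw [div_add_div _ _ hdC (mul_ne_zero hdC hden0),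
      div_eq_div_iff hden0 (mul_ne_zero hdC (mul_ne_zero hdC hden0))]
    linear_combination (τ : ℂ) * ((d : ℂ) * ((γ 1 0 : ℂ) * τ + d)) * h
  have hzim : 0 < z.im := by
    have h := (γ • τ).im_pos
    rw [← UpperHalfPlane.coe_im, hcoe, show ((γ 0 1 : ℂ) / d) = ((γ 0 1 / d : ℝ) : ℂ) by
      push_cast; rfl, Complex.add_im, Complex.ofReal_im, zero_add] at h
    exact h
  have hw : -1 / ((d : ℂ) ^ 2 * z) = -((γ 1 0 : ℂ) / d) + -1 / (τ : ℂ) := by
    rw [hz, hden, hd]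
    rw [hden, hd] at hden0
    push_cast at hden0 ⊢
    field_simp
    ring
  have hτim : 0 < (-1 / (τ : ℂ)).im := CharacteristicVectors.im_neg_one_div_pos τ.im_pos
  rw [hcoe, theta_translate hA hB hN hn _ d hzim, hw,
    tsum_congr (g := fun m : Fin n → ℤ => qSum A (γ 0 1) d 0 *
      cexp (π * I * ((val B m : ℂ) / N) * (-1 / (τ : ℂ)))) fun m => by
        rw [← qSum_twist hA hB hdetγ hc' m, mul_assoc (qSum A (γ 0 1) d m), ← Complex.exp_add]
        congr 2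
        rw [hc']
        have : (N : ℂ) ≠ 0 := Nat.cast_ne_zero.2 hN.ne'
        push_cast
        field_simp,
    tsum_mul_left, ← phaseTheta_zero hB hN, ← cosetTheta_zero A τ]
  conv_rhs => rw [show (τ : ℂ) = -1 / (-1 / (τ : ℂ)) by field_simp,
    cosetTheta_inversion hA.posDef 0 hn hτim, CharacteristicVectors.det_toReal]
  rw [show (-1 : ℂ) / (-1 / (τ : ℂ)) = τ by field_simp, hz, ← hden,
    show I / ((d : ℂ) ^ 2 * ((τ : ℂ) / (d * den))) = -I * (-1 / (τ : ℂ)) * den / d by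
      field_simp]
  push_cast
  rw [div_pow, mul_pow]
  field_simp

/-- `ε` is the multiplier of the series at `γ`. -/
def HasMult (A : Matrix (Fin n) (Fin n) ℤ) (k : ℕ) (γ : SL(2, ℤ)) (ε : ℂ) : Prop :=
  ∀ τ : ℍ, latTheta A (γ • τ : ℍ) =
    ε * ((γ 1 0 : ℂ) * τ + (γ 1 1 : ℂ)) ^ k * latTheta A τ

theorem tendsto_latTheta (hA : EvenPositive A) :
    Tendsto (fun z : ℍ => latTheta A z) atImInfty (𝓝 1) := by
  have hnn : ∀ v : Fin n → ℤ, (0 : ℝ) ≤ (val A v : ℝ) := fun v => by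
    exact_mod_cast hA.val_nonneg v
  have hs : Summable fun v : Fin n → ℤ => Real.exp (-(π * (val A v : ℝ))) :=
    (CharacteristicVectors.summable_exp_gram hA.posDef one_pos).congr fun v => by
      rw [CharacteristicVectors.gramVal_toReal, mul_one]
  have h := CharacteristicVectors.tendsto_tsum_exp hnn hs
  have hcard : Nat.card {v : Fin n → ℤ // (val A v : ℝ) = 0} = 1 := by
    rw [Nat.card_eq_one_iff_unique]
    refine ⟨⟨fun x y => Subtype.ext ?_⟩, ⟨⟨0, by simp⟩⟩⟩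
    have h0 : ∀ v : {v : Fin n → ℤ // (val A v : ℝ) = 0}, v.1 = 0 := fun v => by
      by_contra hv
      have h1 := hA.2.2 v.1 hv
      have h2 : val A v.1 = 0 := by exact_mod_cast v.2
      rw [val] at h2
      omega
    rw [h0 x, h0 y]
  rw [hcard, Nat.cast_one] at h
  exact h.congr fun z => tsum_congr fun v => by simp [val]

theorem HasMult.unique (hA : EvenPositive A) {γ : SL(2, ℤ)} {ε ε' : ℂ} (h : HasMult A k γ ε)
    (h' : HasMult A k γ ε') : ε = ε' := by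
  obtain ⟨τ, hτ⟩ := ((tendsto_latTheta hA).eventually_ne one_ne_zero).exists
  have hden : ((γ 1 0 : ℂ) * τ + (γ 1 1 : ℂ)) ^ k ≠ 0 := by
    refine pow_ne_zero _ fun h0 => ?_
    exact UpperHalfPlane.denom_ne_zero (γ : GL (Fin 2) ℝ) τ (by
      simpa [ModularGroup.denom_apply] using h0)
  exact mul_right_cancel₀ hden (mul_right_cancel₀ hτ ((h τ).symm.trans (h' τ)))

theorem HasMult.mul {γ δ : SL(2, ℤ)} {ε η : ℂ} (hγ : HasMult A k γ ε) (hδ : HasMult A k δ η) :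
    HasMult A k (γ * δ) (ε * η) := fun τ => by
  rw [mul_smul, hγ, hδ]
  have hden : ((δ 1 0 : ℂ) * τ + (δ 1 1 : ℂ)) ≠ 0 := fun h0 =>
    UpperHalfPlane.denom_ne_zero (δ : GL (Fin 2) ℝ) τ (by
      simpa [ModularGroup.denom_apply] using h0)
  rw [show ((γ * δ) 1 0 : ℂ) * τ + ((γ * δ) 1 1 : ℂ) =
      ((γ 1 0 : ℂ) * ((δ • τ : ℍ) : ℂ) + (γ 1 1 : ℂ)) *
        ((δ 1 0 : ℂ) * τ + (δ 1 1 : ℂ)) by
    rw [UpperHalfPlane.specialLinearGroup_apply]
    simp only [algebraMap_int_eq, eq_intCast, Complex.ofReal_intCast,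
      Matrix.SpecialLinearGroup.coe_mul, Matrix.mul_apply, Fin.sum_univ_two]
    push_cast
    field_simp
    ring, mul_pow]
  ring

theorem hasMult_one (hA : EvenPositive A) (hB : IsLevelDual A B N) (hN : 0 < N) (hn : n = 2 * k)
    {γ : SL(2, ℤ)} (hd : γ 1 1 = 1) (hc : (N : ℤ) ∣ γ 1 0) : HasMult A k γ 1 := fun τ => by
  rw [theta_gamma_pos hA hB hN hn (d := 1) (by simpa using hd) hc τ, qSum_one]
  simp

theorem hasMult_neg {γ : SL(2, ℤ)} {ε : ℂ} (h : HasMult A k γ ε) :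
    HasMult A k (-γ) ((-1) ^ k * ε) := fun τ => by
  rw [ModularGroup.SL_neg_smul, h]
  simp only [Matrix.SpecialLinearGroup.coe_neg, Matrix.neg_apply, Int.cast_neg]
  rw [show (-(γ 1 0 : ℂ)) * τ + -(γ 1 1 : ℂ) = (-1) * ((γ 1 0 : ℂ) * τ + (γ 1 1 : ℂ)) by ring,
    mul_pow, show (-1 : ℂ) ^ k * ε * ((-1) ^ k * ((γ 1 0 : ℂ) * τ + (γ 1 1 : ℂ)) ^ k) =
      ((-1) ^ k * (-1) ^ k) * (ε * ((γ 1 0 : ℂ) * τ + (γ 1 1 : ℂ)) ^ k) by ring,
    ← mul_pow (-1 : ℂ), neg_one_mul, neg_neg, one_pow, one_mul]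

/-- `((-1)^k det A / p)`. -/
def sym (A : Matrix (Fin n) (Fin n) ℤ) (k p : ℕ) : ℂ := (jacobiSym ((-1) ^ k * A.det) p : ℂ)

/-- An odd prime prime to `N` and to the determinant. -/
def GoodPrime (A : Matrix (Fin n) (Fin n) ℤ) (N p : ℕ) : Prop :=
  p.Prime ∧ p ≠ 2 ∧ ¬ p ∣ N ∧ ¬ (p : ℤ) ∣ A.det

theorem not_dvd_det (hB : IsLevelDual A B N) {p : ℕ} (hp : p.Prime) (hpN : ¬ p ∣ N) :
    ¬ (p : ℤ) ∣ A.det := fun h => hpN <| by
  have e := congrArg Matrix.det hB.1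
  rw [det_mul, det_smul, det_one, mul_one, Fintype.card_fin] at e
  have h1 : (p : ℤ) ∣ (N : ℤ) ^ n := e ▸ h.mul_right _
  exact_mod_cast (Nat.prime_iff_prime_int.1 hp).dvd_of_dvd_pow h1

theorem goodPrime_of_lt (hB : IsLevelDual A B N) (hN : 0 < N) {p : ℕ} (hp : p.Prime)
    (h : 2 + N < p) : GoodPrime A N p := by
  have hpN : ¬ p ∣ N := fun hd => by
    have := Nat.le_of_dvd hN hd
    omega
  exact ⟨hp, by omega, hpN, not_dvd_det hB hp hpN⟩

theorem hasMult_prime (hA : EvenPositive A) (hB : IsLevelDual A B N) (hN : 0 < N)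
    (hn : n = 2 * k) {γ : SL(2, ℤ)} {p : ℕ} (hp : GoodPrime A N p) (hd : γ 1 1 = p)
    (hc : (N : ℤ) ∣ γ 1 0) : HasMult A k γ (sym A k p) := fun τ => by
  have : Fact p.Prime := ⟨hp.1⟩
  have hb : ¬ (p : ℤ) ∣ γ 0 1 := fun h => by
    have hdet : γ 0 0 * γ 1 1 - γ 0 1 * γ 1 0 = 1 := by
      rw [← Matrix.det_fin_two γ.1]
      exact γ.2
    have : (p : ℤ) ∣ 1 := by
      rw [← hdet, hd]
      exact dvd_sub (dvd_mul_left _ _) (h.mul_right _)
    exact hp.1.not_dvd_one (by exact_mod_cast this)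
  rw [theta_gamma_pos hA hB hN hn (d := p) hd hc τ, qSum_prime hA hn hp.2.1 hb hp.2.2.2, sym]
  have : (p : ℂ) ^ k ≠ 0 := pow_ne_zero _ (Nat.cast_ne_zero.2 hp.1.ne_zero)
  field_simp

/-- A matrix with lower row `(c, d)`. -/
theorem exists_row {c d : ℤ} (h : IsCoprime c d) : ∃ γ : SL(2, ℤ), γ 1 0 = c ∧ γ 1 1 = d := by
  obtain ⟨u, v, huv⟩ := h
  exact ⟨⟨!![v, -u; c, d], by rw [Matrix.det_fin_two_of]; linarith⟩, rfl, rfl⟩

theorem sym_link (hA : EvenPositive A) (hB : IsLevelDual A B N) (hN : 0 < N) (hn : n = 2 * k)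
    {p r : ℕ} (hp : GoodPrime A N p) (hr : GoodPrime A N r) (h1 : (N : ℤ) ∣ (r : ℤ) - p)
    (h2 : (p : ℤ) ∣ (r : ℤ) + 1) : sym A k p = sym A k r := by
  obtain ⟨b, hb⟩ := h1
  obtain ⟨s, hs⟩ := h2
  obtain ⟨γ, hγ⟩ : ∃ γ : SL(2, ℤ), γ.1 = !![s - 1, b; (N : ℤ), (p : ℤ)] :=
    ⟨⟨!![s - 1, b; (N : ℤ), (p : ℤ)], by
      rw [Matrix.det_fin_two_of]
      linear_combination hb - hs⟩, rfl⟩
  obtain ⟨L, hL⟩ : ∃ L : SL(2, ℤ), L.1 = !![1, 0; (N : ℤ), 1] :=
    ⟨⟨!![1, 0; (N : ℤ), 1], by rw [Matrix.det_fin_two_of]; ring⟩, rfl⟩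
  have hγm := hasMult_prime hA hB hN hn hp (γ := γ) (by rw [hγ]; rfl) (by rw [hγ]; exact dvd_rfl)
  have hLm := hasMult_one hA hB hN hn (γ := L) (by rw [hL]; rfl) (by rw [hL]; exact dvd_rfl)
  have hprod := hasMult_prime hA hB hN hn hr (γ := L * γ)
    (by
      rw [Matrix.SpecialLinearGroup.coe_mul, hL, hγ]
      simp [Matrix.mul_apply, Fin.sum_univ_two]
      linarith)
    (by
      rw [Matrix.SpecialLinearGroup.coe_mul, hL, hγ]
      simp [Matrix.mul_apply, Fin.sum_univ_two])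
  simpa using (hLm.mul hγm).unique hA hprod

theorem sym_congr (hA : EvenPositive A) (hB : IsLevelDual A B N) (hN : 0 < N) (hn : n = 2 * k)
    {p q : ℕ} (hp : GoodPrime A N p) (hq : GoodPrime A N q) (h : (p : ZMod N) = (q : ZMod N)) :
    sym A k p = sym A k q := by
  rcases eq_or_ne p q with rfl | hpq
  · rfl
  have hcop : Nat.Coprime N (p * q) :=
    Nat.Coprime.mul_right ((hp.1.coprime_iff_not_dvd.2 hp.2.2.1).symm)
      ((hq.1.coprime_iff_not_dvd.2 hq.2.2.1).symm)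
  obtain ⟨u, v, huv⟩ := Nat.isCoprime_iff_coprime.2 hcop
  push_cast at huv
  obtain ⟨a, ha⟩ : ∃ a : ℤ, a = p * (v * (p * q)) - u * N := ⟨_, rfl⟩
  have ha' : IsCoprime a ((N * (p * q) : ℕ) : ℤ) := by
    push_cast
    refine IsCoprime.mul_right ?_ ?_
    · have h1 : IsCoprime (p : ℤ) N :=
        Nat.isCoprime_iff_coprime.2 (hp.1.coprime_iff_not_dvd.2 hp.2.2.1)
      rw [show a = (p : ℤ) + (-(u * p + u)) * N by rw [ha]; linear_combination (p : ℤ) * huv]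
      exact h1.add_mul_right_left _
    · rw [show a = -1 + (v * p + v) * ((p : ℤ) * q) by rw [ha]; linear_combination -huv]
      exact isCoprime_one_left.neg_left.add_mul_right_left _
  obtain ⟨r, hrlt, hr, hmod⟩ := Nat.forall_exists_prime_gt_and_zmodEq (2 + N)
    (Nat.mul_ne_zero hN.ne' (Nat.mul_ne_zero hp.1.ne_zero hq.1.ne_zero)) ha'
  have hgood := goodPrime_of_lt hB hN hr hrlt
  obtain ⟨t, ht⟩ := (Int.modEq_iff_dvd.1 hmod.symm)
  push_cast at ht
  have hrN : (N : ℤ) ∣ (r : ℤ) - p := ⟨t * (p * q) - (u * p + u), by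
    rw [ha] at ht
    linear_combination ht + (p : ℤ) * huv⟩
  have hrp : (p : ℤ) ∣ (r : ℤ) + 1 := ⟨t * N * q + (v * p + v) * q, by
    rw [ha] at ht
    linear_combination ht - huv⟩
  have hrq : (q : ℤ) ∣ (r : ℤ) + 1 := ⟨t * N * p + (v * p + v) * p, by
    rw [ha] at ht
    linear_combination ht - huv⟩
  have hrNq : (N : ℤ) ∣ (r : ℤ) - q := by
    have hpq' : (N : ℤ) ∣ (p : ℤ) - q := by
      rw [← ZMod.intCast_zmod_eq_zero_iff_dvd]
      push_cast
      rw [h, sub_self]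
    simpa using dvd_add hrN hpq'
  rw [sym_link hA hB hN hn hp hgood hrN hrp, sym_link hA hB hN hn hq hgood hrNq hrq]

theorem exists_rep (hB : IsLevelDual A B N) (hN : 0 < N) (x : (ZMod N)ˣ) :
    ∃ p : ℕ, GoodPrime A N p ∧ (p : ZMod N) = x := by
  have : NeZero N := ⟨hN.ne'⟩
  obtain ⟨p, hlt, hp, hpx⟩ := Nat.forall_exists_prime_gt_and_eq_mod x.isUnit (2 + N)
  exact ⟨p, goodPrime_of_lt hB hN hp hlt, hpx⟩

/-- The prime chosen in a class. -/
def repPrime (hB : IsLevelDual A B N) (hN : 0 < N) (x : (ZMod N)ˣ) : ℕ :=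
  (exists_rep hB hN x).choose

/-- The character on units. -/
def unitValue (hB : IsLevelDual A B N) (hN : 0 < N) (k : ℕ) (x : (ZMod N)ˣ) : ℂ :=
  sym A k (repPrime hB hN x)

theorem hasMult_of_ne (hA : EvenPositive A) (hB : IsLevelDual A B N) (hN : 0 < N)
    (hn : n = 2 * k) {γ : SL(2, ℤ)} (hc : (N : ℤ) ∣ γ 1 0) (hc0 : γ 1 0 ≠ 0) (x : (ZMod N)ˣ)
    (hx : (x : ZMod N) = (γ 1 1 : ZMod N)) : HasMult A k γ (unitValue hB hN k x) := by
  have hcop : IsCoprime (γ 1 1) ((γ 1 0).natAbs : ℤ) := by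
    have hdet : γ 0 0 * γ 1 1 - γ 0 1 * γ 1 0 = 1 := by
      rw [← Matrix.det_fin_two γ.1]
      exact γ.2
    have h : IsCoprime (γ 1 1) (γ 1 0) := ⟨γ 0 0, -γ 0 1, by linarith⟩
    rcases Int.natAbs_eq (γ 1 0) with e | e
    · rwa [← e]
    · rw [show ((γ 1 0).natAbs : ℤ) = -γ 1 0 by omega]
      exact h.neg_right
  obtain ⟨p, hlt, hp, hmod⟩ :=
    Nat.forall_exists_prime_gt_and_zmodEq (2 + N) (Int.natAbs_ne_zero.2 hc0) hcop
  have hgood := goodPrime_of_lt hB hN hp hlt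
  obtain ⟨i, hi⟩ : γ 1 0 ∣ (p : ℤ) - γ 1 1 :=
    Int.natAbs_dvd.1 (Int.modEq_iff_dvd.1 hmod.symm)
  have hrow : (γ * ModularGroup.T ^ i) 1 0 = γ 1 0 ∧ (γ * ModularGroup.T ^ i) 1 1 = p := by
    rw [Matrix.SpecialLinearGroup.coe_mul, ModularGroup.coe_T_zpow]
    refine ⟨?_, ?_⟩ <;> simp [Matrix.mul_apply, Fin.sum_univ_two]
    linarith
  have hT : HasMult A k (ModularGroup.T ^ (-i)) 1 := hasMult_one hA hB hN hn
    (by rw [ModularGroup.coe_T_zpow]; rfl) (by rw [ModularGroup.coe_T_zpow]; exact dvd_zero _)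
  have h := (hasMult_prime hA hB hN hn hgood hrow.2 (by rw [hrow.1]; exact hc)).mul hT
  rw [mul_one, mul_assoc, ← _root_.zpow_add, add_neg_cancel, zpow_zero, mul_one] at h
  rw [unitValue, repPrime, sym_congr hA hB hN hn (exists_rep hB hN x).choose_spec.1 hgood]
  · exact h
  · rw [(exists_rep hB hN x).choose_spec.2, hx]
    have : ((p : ℤ) : ZMod N) = (γ 1 1 : ZMod N) := by
      rw [ZMod.intCast_eq_intCast_iff_dvd_sub]
      rw [dvd_sub_comm, hi]
      exact hc.mul_right i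
    rw [← this, Int.cast_natCast]

theorem exists_gamma (hN : 0 < N) (x : (ZMod N)ˣ) :
    ∃ γ : SL(2, ℤ), γ 1 0 = N ∧ (γ 1 1 : ZMod N) = x := by
  have : NeZero N := ⟨hN.ne'⟩
  obtain ⟨γ, h1, h2⟩ := exists_row (Nat.isCoprime_iff_coprime.2
    (ZMod.val_coe_unit_coprime x).symm : IsCoprime (N : ℤ) ((x : ZMod N).val : ℤ))
  exact ⟨γ, h1, by rw [h2]; simp⟩

theorem unitValue_one (hA : EvenPositive A) (hB : IsLevelDual A B N) (hN : 0 < N)
    (hn : n = 2 * k) : unitValue hB hN k 1 = 1 := by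
  obtain ⟨γ, h0, h1⟩ := exists_row (isCoprime_one_right : IsCoprime (N : ℤ) 1)
  refine HasMult.unique hA (hasMult_of_ne hA hB hN hn (h0 ▸ dvd_rfl) ?_ 1 (by simp [h1]))
    (hasMult_one hA hB hN hn h1 (h0 ▸ dvd_rfl))
  rw [h0]
  exact_mod_cast hN.ne'

theorem unitValue_neg_one (hA : EvenPositive A) (hB : IsLevelDual A B N) (hN : 0 < N)
    (hn : n = 2 * k) : unitValue hB hN k (-1) = (-1) ^ k := by
  obtain ⟨γ, h0, h1⟩ := exists_row (isCoprime_one_right : IsCoprime (-(N : ℤ)) 1)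
  have hm := hasMult_neg (hasMult_one hA hB hN hn h1 (h0 ▸ (dvd_neg.2 dvd_rfl)))
  rw [mul_one] at hm
  refine HasMult.unique hA (hasMult_of_ne hA hB hN hn ?_ ?_ (-1) ?_) hm
  · simp [h0]
  · simp [h0, hN.ne']
  · simp [h1]

theorem hasMult_gamma0 (hA : EvenPositive A) (hB : IsLevelDual A B N) (hN : 0 < N)
    (hn : n = 2 * k) {γ : SL(2, ℤ)} (hc : (N : ℤ) ∣ γ 1 0) (x : (ZMod N)ˣ)
    (hx : (x : ZMod N) = (γ 1 1 : ZMod N)) : HasMult A k γ (unitValue hB hN k x) := by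
  by_cases hc0 : γ 1 0 = 0
  · have hdet : γ 0 0 * γ 1 1 = 1 := by
      have h : γ 0 0 * γ 1 1 - γ 0 1 * γ 1 0 = 1 := by
        rw [← Matrix.det_fin_two γ.1]
        exact γ.2
      rwa [hc0, mul_zero, sub_zero] at h
    rcases Int.isUnit_iff.1 (IsUnit.of_mul_eq_one _ (mul_comm (γ 1 1) _ ▸ hdet)) with h | h
    · rw [show x = 1 from Units.ext (by simp [hx, h]), unitValue_one hA hB hN hn]
      exact hasMult_one hA hB hN hn h hc
    · rw [show x = -1 from Units.ext (by simp [hx, h]), unitValue_neg_one hA hB hN hn]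
      have h1 : (-γ) 1 1 = 1 := by simp [h]
      have := hasMult_neg (hasMult_one hA hB hN hn h1 (by simpa using hc))
      rwa [mul_one, neg_neg] at this
  · exact hasMult_of_ne hA hB hN hn hc hc0 x hx

theorem unitValue_mul (hA : EvenPositive A) (hB : IsLevelDual A B N) (hN : 0 < N)
    (hn : n = 2 * k) (x y : (ZMod N)ˣ) :
    unitValue hB hN k (x * y) = unitValue hB hN k x * unitValue hB hN k y := by
  obtain ⟨γ, hγ0, hγ1⟩ := exists_gamma hN x
  obtain ⟨δ, hδ0, hδ1⟩ := exists_gamma hN y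
  refine HasMult.unique hA (hasMult_gamma0 hA hB hN hn (γ := γ * δ) ?_ (x * y) ?_)
    ((hasMult_gamma0 hA hB hN hn (hγ0 ▸ dvd_rfl) x hγ1.symm).mul
      (hasMult_gamma0 hA hB hN hn (hδ0 ▸ dvd_rfl) y hδ1.symm))
  · simp [Matrix.mul_apply, Fin.sum_univ_two, hγ0, hδ0]
  · simp [Matrix.mul_apply, Fin.sum_univ_two, hγ0, hγ1, hδ1]

theorem unitValue_ne_zero (hA : EvenPositive A) (hB : IsLevelDual A B N) (hN : 0 < N)
    (hn : n = 2 * k) (x : (ZMod N)ˣ) : unitValue hB hN k x ≠ 0 := fun h => by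
  have h1 := unitValue_mul hA hB hN hn x x⁻¹
  rw [mul_inv_cancel, unitValue_one hA hB hN hn, h, zero_mul] at h1
  exact one_ne_zero h1

/-- **The character of the lattice.** -/
theorem exists_character (hA : EvenPositive A) (hB : IsLevelDual A B N) (hN : 0 < N)
    (hn : n = 2 * k) :
    ∃ χ : DirichletCharacter ℂ N, χ (-1) = (-1) ^ k ∧
      (∀ p : ℕ, p.Prime → p ≠ 2 → ¬ p ∣ N →
        χ p = (jacobiSym ((-1) ^ k * A.det) p : ℂ)) ∧
      ∀ γ ∈ Gamma0 N, HasMult A k γ (χ (γ 1 1 : ZMod N)) := by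
  obtain ⟨f, hf⟩ : ∃ f : (ZMod N)ˣ →* ℂˣ, ∀ x, (f x : ℂ) = unitValue hB hN k x :=
    ⟨{ toFun := fun x => Units.mk0 _ (unitValue_ne_zero hA hB hN hn x)
       map_one' := Units.ext (unitValue_one hA hB hN hn)
       map_mul' := fun x y => Units.ext (unitValue_mul hA hB hN hn x y) }, fun _ => rfl⟩
  have hχ : ∀ x : (ZMod N)ˣ, MulChar.ofUnitHom f (x : ZMod N) = unitValue hB hN k x := fun x =>
    (MulChar.ofUnitHom_coe f x).trans (hf x)
  refine ⟨MulChar.ofUnitHom f, ?_, fun p hp h2 hpN => ?_, fun γ hγ => ?_⟩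
  · exact (hχ (-1)).trans (unitValue_neg_one hA hB hN hn)
  · obtain ⟨x, hx⟩ : IsUnit (p : ZMod N) :=
      (ZMod.isUnit_iff_coprime _ _).2 (hp.coprime_iff_not_dvd.2 hpN)
    rw [← hx, hχ, unitValue, repPrime, sym_congr hA hB hN hn (exists_rep hB hN x).choose_spec.1
      ⟨hp, h2, hpN, not_dvd_det hB hp hpN⟩ ((exists_rep hB hN x).choose_spec.2.trans hx), sym]
  · have hc : (N : ℤ) ∣ γ 1 0 := (ZMod.intCast_zmod_eq_zero_iff_dvd _ N).1 (Gamma0_mem.1 hγ)
    obtain ⟨x, hx⟩ : IsUnit (γ 1 1 : ZMod N) := by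
      refine IsUnit.of_mul_eq_one (γ 0 0 : ZMod N) ?_
      have h : γ 0 0 * γ 1 1 - γ 0 1 * γ 1 0 = 1 := by
        rw [← Matrix.det_fin_two γ.1]
        exact γ.2
      have h' := congrArg (fun t : ℤ => (t : ZMod N)) h
      push_cast at h'
      rw [Gamma0_mem.1 hγ, mul_zero, sub_zero, mul_comm] at h'
      exact h'
    rw [← hx, hχ]
    exact hasMult_gamma0 hA hB hN hn hc x hx

end FA.ThetaLevel

end
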