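import Fermat.Agent.ThetaLevel.Character
import Mathlib.NumberTheory.ModularForms.QExpansion
import Mathlib.NumberTheory.ModularForms.Cusps

/-!
# The theta series as a modular form of level `N`

Near a cusp the translation formula bounds the series by a convergent dual series, so it is a
modular form on `Γ₁(N)`; its coefficients count the vectors of each value.
-/

set_option autoImplicit false
set_option linter.unusedSectionVars false

noncomputable section

namespace FA.ThetaLevel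

open UpperHalfPlane hiding I
open Complex Matrix Filter CongruenceSubgroup
open CharacteristicVectors (gramVal latTheta toReal)
open IndefiniteUnimodular (val)
open scoped Real Topology MatrixGroups ModularForm

variable {n k : ℕ} {A B : Matrix (Fin n) (Fin n) ℤ} {N : ℕ}

theorem denom_ne_zero' (γ : SL(2, ℤ)) (τ : ℍ) : (γ 1 0 : ℂ) * τ + (γ 1 1 : ℂ) ≠ 0 := fun h =>
  UpperHalfPlane.denom_ne_zero (γ : GL (Fin 2) ℝ) τ (by
    simpa [ModularGroup.denom_apply] using h)

/-- The bound at a cusp `a / c` with `c > 0`. -/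
theorem exists_cusp_bound_pos (hA : EvenPositive A) (hB : IsLevelDual A B N) (hN : 0 < N)
    (hn : n = 2 * k) {γ : SL(2, ℤ)} (hc : 0 < γ 1 0) :
    ∃ M : ℝ, ∀ τ : ℍ, 1 ≤ τ.im →
      ‖latTheta A (γ • τ : ℍ)‖ ≤ M * ‖(γ 1 0 : ℂ) * τ + (γ 1 1 : ℂ)‖ ^ k := by
  obtain ⟨q, hq⟩ : ∃ q : ℕ, γ 1 0 = q := ⟨(γ 1 0).toNat, (Int.toNat_of_nonneg hc.le).symm⟩
  have : NeZero q := ⟨fun h => by simp [hq, h] at hc⟩
  have hqC : (q : ℂ) ≠ 0 := Nat.cast_ne_zero.2 (NeZero.ne q)
  have hs : Summable fun m : Fin n → ℤ => Real.exp (-(π * 1 * gramVal (toReal A)⁻¹ m)) :=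
    CharacteristicVectors.summable_exp_gram hA.posDef.inv one_pos
  refine ⟨|(√(A.det : ℝ))⁻¹| * (1 / (q : ℝ)) ^ k *
    ∑' m : Fin n → ℤ, (q : ℝ) ^ n * Real.exp (-(π * 1 * gramVal (toReal A)⁻¹ m)), fun τ hτ => ?_⟩
  obtain ⟨den, hden⟩ : ∃ den : ℂ, den = (γ 1 0 : ℂ) * τ + (γ 1 1 : ℂ) := ⟨_, rfl⟩
  have hden0 : den ≠ 0 := hden ▸ denom_ne_zero' γ τ
  rw [← hden]
  obtain ⟨z, hz⟩ : ∃ z : ℂ, z = -1 / (q * den) := ⟨_, rfl⟩
  have hcoe : ((γ • τ : ℍ) : ℂ) = (γ 0 0 : ℂ) / q + z := by
    have hdet : γ 0 0 * γ 1 1 - γ 0 1 * γ 1 0 = 1 := by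
      rw [← Matrix.det_fin_two γ.1]
      exact γ.2
    have h := congrArg (fun t : ℤ => (t : ℂ)) hdet
    push_cast at h
    rw [UpperHalfPlane.specialLinearGroup_apply]
    simp only [algebraMap_int_eq, eq_intCast, Complex.ofReal_intCast]
    rw [hz, hden]
    rw [hden] at hden0
    rw [hq] at h hden0 ⊢
    push_cast at h hden0 ⊢
    rw [div_add_div _ _ hqC (mul_ne_zero hqC hden0),
      div_eq_div_iff hden0 (mul_ne_zero hqC (mul_ne_zero hqC hden0))]
    linear_combination -((q : ℂ) * ((q : ℂ) * τ + (γ 1 1 : ℂ))) * h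
  have hzim : 0 < z.im := by
    have h := (γ • τ).im_pos
    rw [← UpperHalfPlane.coe_im, hcoe, show ((γ 0 0 : ℂ) / q) = ((γ 0 0 / q : ℝ) : ℂ) by
      push_cast; rfl, Complex.add_im, Complex.ofReal_im, zero_add] at h
    exact h
  have hw : -1 / ((q : ℂ) ^ 2 * z) = (τ : ℂ) + (((γ 1 1 : ℝ) / q : ℝ) : ℂ) := by
    rw [hz, hden, hq]
    rw [hden, hq] at hden0
    push_cast at hden0 ⊢
    field_simp
  have hfac : I / ((q : ℂ) ^ 2 * z) = -I / q * den := by
    rw [hz]
    field_simp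
  rw [hcoe, theta_translate hA hB hN hn _ q hzim, hw, hfac, mul_pow, norm_mul, norm_mul,
    norm_mul, norm_pow, norm_pow, Complex.norm_real, Real.norm_eq_abs, norm_div, norm_neg,
    Complex.norm_I, Complex.norm_natCast]
  rw [mul_right_comm (|(√(A.det : ℝ))⁻¹| * (1 / (q : ℝ)) ^ k), ← mul_assoc |(√(A.det : ℝ))⁻¹|]
  refine mul_le_mul_of_nonneg_left ?_ (by positivity)
  refine tsum_of_norm_bounded (hs.mul_left _).hasSum fun m => ?_
  rw [norm_mul]
  refine mul_le_mul (norm_qSum_le _ q m) ?_ (norm_nonneg _) (by positivity)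
  have e : ((val B m : ℂ) / N) = ((gramVal (toReal A)⁻¹ m : ℝ) : ℂ) := by
    rw [gramVal_inv hB hN]
    push_cast
    rfl
  rw [e, CharacteristicVectors.norm_cexp_gram, Complex.add_im, Complex.ofReal_im, add_zero,
    UpperHalfPlane.coe_im]
  refine Real.exp_le_exp.2 (neg_le_neg ?_)
  exact mul_le_mul_of_nonneg_right (mul_le_mul_of_nonneg_left hτ Real.pi_pos.le)
    (CharacteristicVectors.gramVal_nonneg hA.posDef.inv m)

/-- **The bound at every cusp.** -/
theorem exists_cusp_bound (hA : EvenPositive A) (hB : IsLevelDual A B N) (hN : 0 < N)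
    (hn : n = 2 * k) (γ : SL(2, ℤ)) :
    ∃ M : ℝ, ∀ τ : ℍ, 1 ≤ τ.im →
      ‖latTheta A (γ • τ : ℍ)‖ ≤ M * ‖(γ 1 0 : ℂ) * τ + (γ 1 1 : ℂ)‖ ^ k := by
  rcases lt_trichotomy (γ 1 0) 0 with hc | hc | hc
  · obtain ⟨M, hM⟩ := exists_cusp_bound_pos hA hB hN hn (γ := -γ) (by simpa using hc)
    refine ⟨M, fun τ hτ => ?_⟩
    have h := hM τ hτ
    simp only [ModularGroup.SL_neg_smul, Matrix.SpecialLinearGroup.coe_neg, Matrix.neg_apply,
      Int.cast_neg, neg_mul] at h
    rwa [← neg_add, norm_neg] at h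
  · obtain ⟨χ, -, -, hχ⟩ := exists_character hA hB hN hn
    refine ⟨‖χ (γ 1 1 : ZMod N)‖ *
      ∑' v : Fin n → ℤ, Real.exp (-(π * 1 * gramVal (toReal A) v)), fun τ hτ => ?_⟩
    rw [hχ γ (Gamma0_mem.2 (by simp [hc])) τ, norm_mul, norm_mul, norm_pow,
      mul_right_comm ‖χ (γ 1 1 : ZMod N)‖]
    refine mul_le_mul_of_nonneg_right (mul_le_mul_of_nonneg_left ?_ (norm_nonneg _)) (by positivity)
    refine tsum_of_norm_bounded (CharacteristicVectors.summable_exp_gram hA.posDef one_pos).hasSum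
      fun v => ?_
    rw [← Complex.ofReal_intCast, ← CharacteristicVectors.gramVal_toReal,
      CharacteristicVectors.norm_cexp_gram, UpperHalfPlane.coe_im]
    refine Real.exp_le_exp.2 (neg_le_neg ?_)
    exact mul_le_mul_of_nonneg_right (mul_le_mul_of_nonneg_left hτ Real.pi_pos.le)
      (CharacteristicVectors.gramVal_nonneg hA.posDef v)
  · exact exists_cusp_bound_pos hA hB hN hn hc

/-- The series as a function on the upper half plane. -/
def thetaUp (A : Matrix (Fin n) (Fin n) ℤ) : ℍ → ℂ := fun z => latTheta A z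

theorem slash_of_hasMult {γ : SL(2, ℤ)} {ε : ℂ} (h : HasMult A k γ ε) :
    thetaUp A ∣[(k : ℤ)] γ = ε • thetaUp A := by
  funext τ
  rw [ModularForm.SL_slash_apply, thetaUp, h τ, ModularGroup.denom_apply, Pi.smul_apply,
    smul_eq_mul, _root_.zpow_neg, zpow_natCast]
  field_simp [pow_ne_zero k (denom_ne_zero' γ τ)]
  rfl

theorem isBoundedAtImInfty_slash (hA : EvenPositive A) (hB : IsLevelDual A B N) (hN : 0 < N)
    (hn : n = 2 * k) (γ : SL(2, ℤ)) : IsBoundedAtImInfty (thetaUp A ∣[(k : ℤ)] γ) := by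
  obtain ⟨M, hM⟩ := exists_cusp_bound hA hB hN hn γ
  refine UpperHalfPlane.isBoundedAtImInfty_iff.2 ⟨M, 1, fun τ hτ => ?_⟩
  rw [ModularForm.SL_slash_apply, ModularGroup.denom_apply, norm_mul, _root_.zpow_neg, zpow_natCast,
    norm_inv, norm_pow, ← div_eq_mul_inv, div_le_iff₀ (pow_pos
      (norm_pos_iff.2 (denom_ne_zero' γ τ)) k)]
  exact hM τ hτ

/-- The number of vectors of value `2 m`. -/
def repNum (A : Matrix (Fin n) (Fin n) ℤ) (m : ℕ) : ℕ :=
  Nat.card {v : Fin n → ℤ // val A v = 2 * (m : ℤ)}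

theorem finite_val_eq (hA : EvenPositive A) (j : ℤ) : {v : Fin n → ℤ | val A v = j}.Finite := by
  have h := (CharacteristicVectors.summable_exp_gram hA.posDef one_pos).tendsto_cofinite_zero
    |>.eventually (gt_mem_nhds (Real.exp_pos (-(π * 1 * (j : ℝ)))))
  rw [Filter.eventually_cofinite] at h
  refine h.subset fun v (hv : val A v = j) => ?_
  show ¬ _ < _
  rw [CharacteristicVectors.gramVal_toReal, hv]
  exact lt_irrefl _

theorem hasSum_thetaUp (hA : EvenPositive A) (z : ℍ) :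
    HasSum (fun m : ℕ => (repNum A m : ℂ) • Function.Periodic.qParam (1 : ℝ) (z : ℂ) ^ m)
      (thetaUp A z) := by
  have h := (summable_latTheta hA (z := (z : ℂ)) z.im_pos).hasSum
  rw [← (Equiv.sigmaFiberEquiv fun v => (val A v / 2).toNat).hasSum_iff] at h
  refine h.sigma fun m => ?_
  have hset : ∀ v, (val A v / 2).toNat = m ↔ val A v = 2 * (m : ℤ) := fun v => by
    obtain ⟨e, he⟩ := even_iff_two_dvd.1 (hA.evenForm v)
    have := hA.val_nonneg v
    omega
  have : Fintype {v : Fin n → ℤ // (val A v / 2).toNat = m} :=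
    ((finite_val_eq hA (2 * (m : ℤ))).subset fun v (hv : (val A v / 2).toNat = m) =>
      (hset v).1 hv).fintype
  convert hasSum_fintype _ using 1
  rw [Finset.sum_congr rfl (g := fun _ => Function.Periodic.qParam (1 : ℝ) (z : ℂ) ^ m)
    fun v _ => ?_]
  · rw [Finset.sum_const, repNum, ← Nat.card_congr (Equiv.subtypeEquivRight hset),
      Nat.card_eq_fintype_card, Finset.card_univ, smul_eq_mul, nsmul_eq_mul]
  · simp only [Function.comp_apply, Equiv.sigmaFiberEquiv_apply]
    rw [(hset v.1).1 v.2, Function.Periodic.qParam, ← Complex.exp_nat_mul, Complex.ofReal_one,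
      div_one]
    congr 1
    push_cast
    ring

theorem repNum_zero (hA : EvenPositive A) : repNum A 0 = 1 := by
  rw [repNum, Nat.card_eq_one_iff_unique]
  refine ⟨⟨fun x y => Subtype.ext ?_⟩, ⟨⟨0, by simp⟩⟩⟩
  have h : ∀ v : {v : Fin n → ℤ // val A v = 2 * ((0 : ℕ) : ℤ)}, v.1 = 0 := fun v => by
    by_contra hv
    have h1 := hA.2.2 v.1 hv
    have h2 := v.2
    rw [val] at h2
    omega
  rw [h x, h y]

theorem differentiableAt_theta (hA : EvenPositive A) {z : ℂ} (hz : 0 < z.im) :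
    DifferentiableAt ℂ (latTheta A) z :=
  (CharacteristicVectors.differentiableAt_gramTheta hA.posDef hz).congr_of_eventuallyEq
    (Eventually.of_forall fun w => (CharacteristicVectors.gramTheta_toReal A w).symm)

/-- **The theta series as a modular form on `Γ₁(N)`.** -/
def thetaModular [NeZero N] (hA : EvenPositive A) (hB : IsLevelDual A B N) (hn : n = 2 * k) :
    ModularForm (Gamma1 N) (k : ℤ) where
  toFun := thetaUp A
  slash_action_eq' := by
    rintro g ⟨γ, hγ, rfl⟩
    obtain ⟨χ, -, -, hχ⟩ := exists_character hA hB (NeZero.pos N) hn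
    obtain ⟨-, h1, h2⟩ := (Gamma1_mem N γ).1 hγ
    have h := slash_of_hasMult (hχ γ (Gamma0_mem.2 h2))
    rw [h1, map_one, one_smul] at h
    exact h
  holo' := by
    rw [UpperHalfPlane.mdifferentiable_iff]
    refine DifferentiableOn.congr (f := latTheta A)
      (fun w hw => (differentiableAt_theta hA hw).differentiableWithinAt)
      fun w hw => by simp [thetaUp, ofComplex_apply_of_im_pos hw]
  bdd_at_cusps' hc := by
    rw [Subgroup.IsArithmetic.isCusp_iff_isCusp_SL2Z] at hc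
    exact (OnePoint.isBoundedAt_iff_forall_SL2Z hc).2 fun γ _ =>
      isBoundedAtImInfty_slash hA hB (NeZero.pos N) hn γ

theorem coeff_thetaModular [NeZero N] (hA : EvenPositive A) (hB : IsLevelDual A B N)
    (hn : n = 2 * k) (m : ℕ) :
    (qExpansion 1 (thetaModular hA hB hn)).coeff m = (repNum A m : ℂ) :=
  (ModularFormClass.qExpansion_coeff_unique (c := fun m => (repNum A m : ℂ))
    (f := thetaModular hA hB hn) one_pos (by simp) (hasSum_thetaUp hA) m).symm

/-- Every even positive form has a level. -/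
theorem exists_level (hA : EvenPositive A) :
    IsLevelDual A (2 • A.adjugate) (2 * A.det).natAbs := by
  refine ⟨?_, fun i => ?_⟩
  · rw [Matrix.mul_smul, Matrix.mul_adjugate, Int.natAbs_of_nonneg
      (mul_nonneg zero_le_two hA.det_pos.le), ← smul_assoc, nsmul_eq_mul]
    rfl
  · rw [Matrix.smul_apply, nsmul_eq_mul]
    exact ⟨A.adjugate i i, by push_cast; ring⟩

end FA.ThetaLevel

end
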