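import Fermat.Agent.ThetaLevel.Translate
import Mathlib.NumberTheory.GaussSum
import Mathlib.NumberTheory.LegendreSymbol.JacobiSymbol

/-!
# Gauss sums of a quadratic form modulo an odd prime

On an orthogonal basis the sum is a product of quadratic Gauss sums of one variable, so for rank
`2k` it is `((-1)^k det / p) p^k`.
-/

set_option autoImplicit false
set_option linter.unusedSectionVars false

noncomputable section

namespace FA.ThetaLevel

open Complex Matrix
open IndefiniteUnimodular (val)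
open scoped Real

variable {p : ℕ} [hp : Fact p.Prime] {n : ℕ}

/-- Diagonalisation over `ℤ / p`. -/
theorem exists_diag_zmod (h2 : p ≠ 2) (M : Matrix (Fin n) (Fin n) (ZMod p)) (hM : M.IsSymm) :
    ∃ (w : Fin n → ZMod p) (P R : Matrix (Fin n) (Fin n) (ZMod p)),
      R * P = 1 ∧ P * R = 1 ∧ Pᵀ * diagonal w * P = M := by
  have hne : (2 : ZMod p) ≠ 0 := fun h => h2 <| by
    have h' : ((2 : ℕ) : ZMod p) = 0 := by exact_mod_cast h
    exact (Nat.prime_dvd_prime_iff_eq hp.out Nat.prime_two).1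
      ((ZMod.natCast_eq_zero_iff 2 p).1 h')
  have : Invertible (2 : ZMod p) := invertibleOfNonzero hne
  set B : LinearMap.BilinForm (ZMod p) (Fin n → ZMod p) := Matrix.toBilin' M with hB'
  have hB : LinearMap.IsSymm B := by
    refine ⟨fun x y => ?_⟩
    change B x y = B y x
    simp only [B, Matrix.toBilin'_apply']
    conv_rhs => rw [← hM.eq, dotProduct_transpose_mulVec]
  obtain ⟨v, hv⟩ := LinearMap.BilinForm.exists_orthogonal_basis hB
  obtain ⟨e⟩ : Nonempty (Fin (Module.finrank (ZMod p) (Fin n → ZMod p)) ≃ Fin n) :=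
    ⟨finCongr (Module.finrank_fin_fun (ZMod p))⟩
  obtain ⟨v', hv'⟩ : ∃ v' : Module.Basis (Fin n) (ZMod p) (Fin n → ZMod p), v' = v.reindex e :=
    ⟨_, rfl⟩
  refine ⟨fun i => B (v' i) (v' i), v'.toMatrix (Pi.basisFun _ _),
    (Pi.basisFun (ZMod p) (Fin n)).toMatrix v',
    Module.Basis.toMatrix_mul_toMatrix_flip _ _, Module.Basis.toMatrix_mul_toMatrix_flip _ _, ?_⟩
  have hdiag : LinearMap.BilinForm.toMatrix v' B = diagonal fun i => B (v' i) (v' i) := by
    ext i j
    rw [LinearMap.BilinForm.toMatrix_apply, diagonal_apply]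
    split_ifs with h
    · rw [h]
    · simp only [hv', Module.Basis.reindex_apply]
      exact hv fun e' => h (e.symm.injective e')
  rw [← hdiag, LinearMap.BilinForm.toMatrix_mul_basis_toMatrix,
    LinearMap.BilinForm.toMatrix_basisFun]
  simp [B]

theorem addChar_sum {R ι : Type*} [AddCommMonoid R] (ψ : AddChar R ℂ) (f : ι → R)
    (s : Finset ι) : ψ (∑ i ∈ s, f i) = ∏ i ∈ s, ψ (f i) := by
  classical
  induction s using Finset.induction_on with
  | empty => simp
  | insert a s ha ih => rw [Finset.sum_insert ha, Finset.prod_insert ha, AddChar.map_add_eq_mul, ih]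

/-- The quadratic character with complex values. -/
abbrev chiC (p : ℕ) [Fact p.Prime] : MulChar (ZMod p) ℂ :=
  (quadraticChar (ZMod p)).ringHomComp (Int.castRingHom ℂ)

theorem chiC_sq {x : ZMod p} (hx : x ≠ 0) : chiC p x * chiC p x = 1 := by
  rw [MulChar.ringHomComp_apply, ← map_mul, ← sq, quadraticChar_sq_one hx, map_one]

theorem sum_square_char (h2 : p ≠ 2) {w : ZMod p} (hw : w ≠ 0) :
    ∑ x : ZMod p, ZMod.stdAddChar (w * x ^ 2) =
      chiC p w * gaussSum (chiC p) ZMod.stdAddChar := by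
  classical
  have hchar : ringChar (ZMod p) ≠ 2 := (ZMod.ringChar_zmod_n p).trans_ne h2
  have hprim := ZMod.isPrimitive_stdAddChar p
  have hfib : ∑ x : ZMod p, ZMod.stdAddChar (w * x ^ 2) =
      ∑ y : ZMod p, (chiC p y + 1) * ZMod.stdAddChar (y * w) := by
    rw [← Finset.sum_fiberwise Finset.univ fun x : ZMod p => x ^ 2]
    refine Finset.sum_congr rfl fun y _ => ?_
    rw [Finset.sum_congr rfl (g := fun _ => ZMod.stdAddChar (y * w)) fun x hx => by
      rw [(Finset.mem_filter.1 hx).2, mul_comm], Finset.sum_const, nsmul_eq_mul]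
    congr 1
    have h := quadraticChar_card_sqrts hchar y
    rw [Set.toFinset_ofPred] at h
    rw [MulChar.ringHomComp_apply, ← Int.cast_natCast, h]
    simp
  simp only [hfib, add_mul, one_mul, Finset.sum_add_distrib, AddChar.sum_mulShift w hprim,
    if_neg hw, Nat.cast_zero, add_zero]
  have h := gaussSum_mulShift (chiC p) ZMod.stdAddChar (Units.mk0 w hw)
  rw [Units.val_mk0, gaussSum] at h
  simp only [AddChar.mulShift_apply, mul_comm w] at h
  calc ∑ y : ZMod p, chiC p y * ZMod.stdAddChar (y * w)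
      = chiC p w * (chiC p w * ∑ y : ZMod p, chiC p y * ZMod.stdAddChar (y * w)) := by
        rw [← mul_assoc, chiC_sq hw, one_mul]
    _ = _ := by rw [h]

theorem sum_quadratic_char (h2 : p ≠ 2) {M : Matrix (Fin n) (Fin n) (ZMod p)} (hM : M.IsSymm)
    (hdet : M.det ≠ 0) :
    ∑ x : Fin n → ZMod p, ZMod.stdAddChar (x ⬝ᵥ (M *ᵥ x)) =
      chiC p M.det * gaussSum (chiC p) ZMod.stdAddChar ^ n := by
  obtain ⟨w, P, R, hRP, hPR, hPM⟩ := exists_diag_zmod h2 M hM
  have hd : M.det = P.det ^ 2 * ∏ i, w i := by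
    rw [← hPM, det_mul, det_mul, det_transpose, det_diagonal]
    ring
  have hw : ∀ i, w i ≠ 0 := fun i h => hdet (by
    rw [hd, Finset.prod_eq_zero (Finset.mem_univ i) h, mul_zero])
  have hP : P.det ≠ 0 := fun h => hdet (by rw [hd, h, zero_pow two_ne_zero, zero_mul])
  obtain ⟨e, he⟩ : ∃ e : (Fin n → ZMod p) ≃ (Fin n → ZMod p), ∀ y, e y = R *ᵥ y :=
    ⟨⟨fun y => R *ᵥ y, fun x => P *ᵥ x, fun y => by simp [Matrix.mulVec_mulVec, hPR],
      fun x => by simp [Matrix.mulVec_mulVec, hRP]⟩, fun _ => rfl⟩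
  rw [← e.sum_comp, Finset.sum_congr rfl (g := fun y => ∏ i, ZMod.stdAddChar (w i * y i ^ 2))
    fun y _ => by
      rw [he, ← hPM, ← Matrix.mulVec_mulVec, ← Matrix.mulVec_mulVec, dotProduct_transpose_mulVec,
        Matrix.mulVec_mulVec, Matrix.mulVec_mulVec, Matrix.mul_assoc, hPR, Matrix.mul_one,
        Matrix.mulVec_mulVec, hPR, Matrix.one_mulVec, dotProduct, addChar_sum]
      exact Finset.prod_congr rfl fun i _ => by rw [mulVec_diagonal]; ring_nf,
    ← Fintype.prod_sum (fun i y => ZMod.stdAddChar (w i * y ^ 2)),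
    Finset.prod_congr rfl fun i _ => sum_square_char h2 (hw i), Finset.prod_mul_distrib,
    Finset.prod_const, Finset.card_univ, Fintype.card_fin, hd, map_mul, map_prod, sq, map_mul,
    chiC_sq hP, one_mul]

/-- **The Gauss sum modulo an odd prime.** -/
theorem qSum_prime {A : Matrix (Fin n) (Fin n) ℤ} (hA : EvenPositive A) {k : ℕ} (hn : n = 2 * k)
    (h2 : p ≠ 2) {b : ℤ} (hb : ¬ (p : ℤ) ∣ b) (hdet : ¬ (p : ℤ) ∣ A.det) :
    qSum A b p 0 = (jacobiSym ((-1) ^ k * A.det) p : ℂ) * (p : ℂ) ^ k := by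
  have hchar : ringChar (ZMod p) ≠ 2 := (ZMod.ringChar_zmod_n p).trans_ne h2
  have h2' : (2 : ZMod p) ≠ 0 := Ring.two_ne_zero hchar
  obtain ⟨c, hc⟩ : ∃ c : ZMod p, c = (b : ZMod p) * 2⁻¹ := ⟨_, rfl⟩
  obtain ⟨M, hM⟩ : ∃ M : Matrix (Fin n) (Fin n) (ZMod p),
      M = c • (Int.castRingHom (ZMod p)).mapMatrix A := ⟨_, rfl⟩
  have hc0 : c ≠ 0 := by
    rw [hc]
    exact mul_ne_zero (fun h => hb ((ZMod.intCast_zmod_eq_zero_iff_dvd b p).1 h))
      (inv_ne_zero h2')
  have hMs : M.IsSymm := by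
    rw [hM]
    exact (hA.1.map _).smul c
  have hMd : M.det = c ^ n * (A.det : ZMod p) := by
    rw [hM, det_smul, Fintype.card_fin, ← RingHom.map_det]
    rfl
  have hMd0 : M.det ≠ 0 := by
    rw [hMd]
    exact mul_ne_zero (pow_ne_zero _ hc0)
      fun h => hdet ((ZMod.intCast_zmod_eq_zero_iff_dvd _ p).1 h)
  have key : qSum A b p 0 = ∑ x : Fin n → ZMod p, ZMod.stdAddChar (x ⬝ᵥ (M *ᵥ x)) := by
    refine Finset.sum_congr rfl fun r _ => ?_
    obtain ⟨t, ht⟩ := even_iff_two_dvd.1 (hA.evenForm fun i => ((r i).val : ℤ))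
    have hx : r ⬝ᵥ (M *ᵥ r) = ((b * t : ℤ) : ZMod p) := by
      have h := congrArg (fun z : ℤ => (z : ZMod p)) ht
      simp only [val, dotProduct, Matrix.mulVec, Int.cast_sum, Int.cast_mul, Int.cast_natCast,
        ZMod.natCast_zmod_val, Int.cast_ofNat] at h
      rw [hM, Matrix.smul_mulVec, dotProduct_smul, smul_eq_mul, hc]
      simp only [dotProduct, Matrix.mulVec, RingHom.mapMatrix_apply, Matrix.map_apply,
        eq_intCast]
      rw [h, Int.cast_mul]
      field_simp
    rw [hx, ZMod.stdAddChar_coe, ht, zero_dotProduct, mul_zero, add_zero]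
    congr 1
    push_cast
    ring
  have hne : chiC p ≠ 1 :=
    (MulChar.ringHomComp_ne_one_iff (Int.castRingHom ℂ).injective_int).2
      (quadraticChar_ne_one hchar)
  have hg : gaussSum (chiC p) ZMod.stdAddChar ^ 2 = chiC p (-1) * (p : ℂ) := by
    rw [gaussSum_sq hne ((quadraticChar_isQuadratic (ZMod p)).comp _)
      (ZMod.isPrimitive_stdAddChar p), ZMod.card]
  rw [key, sum_quadratic_char h2 hMs hMd0, hMd, ← jacobiSym.legendreSym.to_jacobiSym, legendreSym,
    show gaussSum (chiC p) ZMod.stdAddChar ^ n = (gaussSum (chiC p) ZMod.stdAddChar ^ 2) ^ k by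
      rw [← pow_mul, ← hn], hg, mul_pow, map_mul, map_pow (chiC p) c n,
    show chiC p c ^ n = (chiC p c * chiC p c) ^ k by rw [← sq, ← pow_mul, ← hn], chiC_sq hc0,
    one_pow, one_mul, ← mul_assoc, ← map_pow, ← map_mul, MulChar.ringHomComp_apply]
  push_cast
  rw [mul_comm ((-1 : ZMod p) ^ k)]
  rfl

end FA.ThetaLevel

end
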