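import Fermat.Agent.HeckeFE.Poisson

/-!
# Poisson summation for shifted Gaussians

The periodised Gaussian at an arbitrary point: the same Fourier series as in `HeckeFE.Poisson`,
evaluated away from the origin.
-/

set_option autoImplicit false
set_option linter.style.haveILetI false

noncomputable section

open MeasureTheory Complex Matrix Set UnitAddTorus
open scoped Real

namespace FA.HeckeFE

attribute [local instance] instMeasureSpaceUnit instHaarUnit instProbUnit

variable {ι : Type*} [Fintype ι]

/-- **Poisson summation for shifted Gaussians.** -/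
theorem gauss_poisson_shift [DecidableEq ι] {L N : Matrix ι ι ℝ} (h : Nᵀ * L = 1) (t : ι → ℝ) :
    ∑' v : ι → ℤ, (gauss L (t + ofInt v) : ℂ) = ((|L.det|⁻¹ : ℝ) : ℂ) *
      ∑' m : ι → ℤ, (gauss N (ofInt m) : ℂ) * cexp (2 * π * I * ∑ i, (m i : ℂ) * (t i : ℂ)) := by
  obtain ⟨δ, hδ, hL⟩ := exists_lower_bound h
  -- the periodisation
  set F : (ι → ℝ) → ℂ := fun x => ∑' v : ι → ℤ, (gauss L (x + ofInt v) : ℂ) with hF
  have hFcont : Continuous F := by
    refine continuous_iff_continuousAt.2 fun x => ?_
    set R := ∑ i, (|x i| + 1) ^ 2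
    refine ContinuousOn.continuousAt (s := Metric.closedBall x 1) ?_
      (Metric.closedBall_mem_nhds x one_pos)
    have hu : Summable fun v : ι → ℤ =>
        Real.exp (π * δ * R) * Real.exp (-(π * δ / 2) * ∑ i, (v i : ℝ) ^ 2) := summable_bound hδ _
    refine continuousOn_tsum (fun v => ?_) hu fun v t ht => ?_
    · exact (continuous_gauss_shift L v).continuousOn
    · rw [Complex.norm_real, Real.norm_of_nonneg (gauss_pos L _).le]
      refine (gauss_add_le hδ hL t v).trans (mul_le_mul_of_nonneg_right (Real.exp_le_exp.2 ?_)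
        (Real.exp_pos _).le)
      refine mul_le_mul_of_nonneg_left (Finset.sum_le_sum fun i _ => ?_) (by positivity)
      have h1 : |t i - x i| ≤ 1 := (norm_le_pi_norm (t - x) i).trans (mem_closedBall_iff_norm.1 ht)
      rw [← sq_abs (t i)]
      exact pow_le_pow_left₀ (abs_nonneg _) (by
        have := abs_add_le (t i - x i) (x i)
        rw [sub_add_cancel] at this
        linarith) 2
  -- the function on the torus
  let sec : UnitAddTorus ι → ι → ℝ := fun θ i => (AddCircle.equivIoc 1 0 (θ i) : ℝ)
  have hq : Topology.IsQuotientMap (toTorus (ι := ι)) :=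
    (IsOpenQuotientMap.piMap (f := fun (_ : ι) (x : ℝ) => (x : UnitAddCircle))
      fun _ => QuotientAddGroup.isOpenQuotientMap_mk).isQuotientMap
  have hper : ∀ x, F (sec (toTorus x)) = F x := fun x => by
    obtain ⟨k, hk⟩ : ∃ k : ι → ℤ, sec (toTorus x) = x + ofInt k := by
      have : ∀ i, ∃ k : ℤ, sec (toTorus x) i = x i + k := fun i => by
        have h1 : ((sec (toTorus x) i : ℝ) : UnitAddCircle) = (x i : UnitAddCircle) :=
          (AddCircle.equivIoc 1 0).symm_apply_apply _
        rw [QuotientAddGroup.eq_iff_sub_mem, AddSubgroup.mem_zmultiples_iff] at h1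
        obtain ⟨k, hk⟩ := h1
        refine ⟨k, ?_⟩
        rw [zsmul_one] at hk
        linarith
      choose k hk using this
      exact ⟨k, funext hk⟩
    simp only [hF, hk]
    rw [← (Equiv.addLeft k).tsum_eq fun v => (gauss L (x + ofInt v) : ℂ)]
    refine tsum_congr fun v => ?_
    congr 2
    funext i
    simp [ofInt, add_assoc]
  let G : C(UnitAddTorus ι, ℂ) := ⟨fun θ => F (sec θ), hq.continuous_iff.2 (by
    have : (fun θ => F (sec θ)) ∘ toTorus = F := funext hper
    rw [this]; exact hFcont)⟩
  -- its coefficients
  have hcoef : ∀ m, mFourierCoeff G m = ((|L.det|⁻¹ * gauss N (ofInt m) : ℝ) : ℂ) := fun m => by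
    rw [mFourierCoeff_eq_integral _ m 0, ← integral_gauss h m]
    set H : (ι → ℝ) → ℂ := fun x => mFourier (-m) (toTorus x) * (gauss L x : ℂ)
    have hnorm : ∀ x, ‖H x‖ = gauss L x := fun x => by
      simp only [H, norm_mul, Complex.norm_real, Real.norm_of_nonneg (gauss_pos L x).le]
      rw [mFourier_toTorus, Complex.norm_exp]
      simp
    have hbox : {x : ι → ℝ | ∀ i, x i ∈ Ioc ((0 : ι → ℝ) i) ((0 : ι → ℝ) i + 1)} = box 0 := by
      simp [box]
    rw [hbox]
    have hpt : EqOn (fun x : ι → ℝ => mFourier (-m) (fun i => (x i : UnitAddCircle)) •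
        G (fun i => (x i : UnitAddCircle))) (fun x => ∑' v : ι → ℤ, H (x + ofInt v)) (box 0) :=
      fun x _ => by
      show mFourier (-m) (toTorus x) • F (sec (toTorus x)) = _
      rw [hper, hF, smul_eq_mul, ← tsum_mul_left]
      exact tsum_congr fun v => by simp only [H, mFourier_toTorus_add]
    rw [setIntegral_congr_fun (measurableSet_box 0) hpt]
    have hHc : Continuous H := by
      refine Continuous.mul ?_ (Complex.continuous_ofReal.comp (continuous_gauss L))
      exact (mFourier (-m)).continuous.comp hq.continuous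
    have hint : ∀ v, IntegrableOn (fun x => H (x + ofInt v)) (box 0) := fun v =>
      ((hHc.comp (continuous_id.add continuous_const)).continuousOn.integrableOn_compact
        (isCompact_univ_pi fun _ : ι => isCompact_Icc (a := (0 : ℝ)) (b := 1))).mono_set
        (fun x hx i _ => by
          have h := hx i
          simp only [Pi.zero_apply, Int.cast_zero, zero_add, mem_Ioc] at h
          exact ⟨h.1.le, h.2⟩)
    have hbd : ∀ v, ∫ x in box 0, ‖H (x + ofInt v)‖ ≤ volume.real (box (0 : ι → ℤ)) *
        (Real.exp (π * δ * Fintype.card ι) * Real.exp (-(π * δ / 2) * ∑ i, (v i : ℝ) ^ 2)) :=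
      fun v => by
      rw [← smul_eq_mul, ← setIntegral_const]
      refine setIntegral_mono_on (hint v).norm (integrableOn_const volume_box_zero_lt_top.ne)
        (measurableSet_box 0) fun x hx => ?_
      rw [hnorm]
      refine (gauss_add_le hδ hL x v).trans (mul_le_mul_of_nonneg_right (Real.exp_le_exp.2 ?_)
        (Real.exp_pos _).le)
      refine mul_le_mul_of_nonneg_left ?_ (by positivity)
      refine (Finset.sum_le_sum fun i _ => (?_ : x i ^ 2 ≤ 1)).trans (by simp)
      have h := hx i
      simp only [Pi.zero_apply, Int.cast_zero, zero_add, mem_Ioc] at h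
      nlinarith
    rw [← integral_tsum_of_summable_integral_norm hint
      (Summable.of_nonneg_of_le (fun v => integral_nonneg fun _ => norm_nonneg _) hbd
        ((summable_bound hδ _).mul_left _))]
    have htr : ∀ v, ∫ x in box 0, H (x + ofInt v) = ∫ x in box v, H x := fun v => by
      rw [← (measurePreserving_add_right volume (ofInt v)).setIntegral_preimage_emb
        (measurableEmbedding_addRight _) H (box v)]
      congr 2
      ext x
      exact (add_mem_box_iff x v).symm
    simp only [htr]
    have hHi : Integrable H := by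
      refine ((?_ : Integrable (fun x : ι → ℝ => gauss L x))).mono' hHc.aestronglyMeasurable
        (Filter.Eventually.of_forall fun x => (hnorm x).le)
      have hb : Integrable fun x : ι → ℝ => Real.exp (-(π * δ) * ∑ i, x i ^ 2) := by
        have hi := (GaussianFourier.integrable_cexp_neg_mul_sum_add (ι := ι)
          (b := ((π * δ : ℝ) : ℂ)) (by simp; positivity) 0).norm
        refine hi.congr (Filter.Eventually.of_forall fun x => ?_)
        show ‖cexp (-((π * δ : ℝ) : ℂ) * ∑ i, (x i : ℂ) ^ 2 + ∑ i, (0 : ι → ℂ) i * (x i : ℂ))‖ = _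
        simp only [Pi.zero_apply, zero_mul, Finset.sum_const_zero, add_zero, ← Complex.ofReal_pow,
          ← Complex.ofReal_sum, ← Complex.ofReal_neg, ← Complex.ofReal_mul,
          Complex.norm_exp_ofReal]
      refine hb.mono' (continuous_gauss L).aestronglyMeasurable
        (Filter.Eventually.of_forall fun x => ?_)
      rw [Real.norm_of_nonneg (gauss_pos L x).le, gauss]
      refine Real.exp_le_exp.2 ?_
      have := mul_le_mul_of_nonneg_left (hL x) Real.pi_pos.le
      linarith
    have hu := hasSum_integral_iUnion (fun v : ι → ℤ => measurableSet_box v) pairwise_disjoint_box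
      (f := H) hHi.integrableOn
    rw [iUnion_box, setIntegral_univ] at hu
    exact hu.tsum_eq
  have hN : Lᵀ * N = 1 := by
    have := congrArg Matrix.transpose h
    rwa [Matrix.transpose_mul, Matrix.transpose_transpose, Matrix.transpose_one] at this
  have hsum : Summable (mFourierCoeff G) := by
    rw [funext hcoef]
    exact Complex.summable_ofReal.2 ((summable_gauss hN).mul_left _)
  have hval := (hasSum_mFourier_series_apply_of_summable hsum (toTorus t)).tsum_eq
  have hG0 : G (toTorus t) = ∑' v : ι → ℤ, (gauss L (t + ofInt v) : ℂ) := by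
    show F (sec (toTorus t)) = _
    rw [hper, hF]
  rw [hG0] at hval
  rw [← hval, ← tsum_mul_left]
  refine tsum_congr fun m => ?_
  rw [hcoef, mFourier_toTorus, smul_eq_mul, Complex.ofReal_mul]
  ring

end FA.HeckeFE
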