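import Fermat.Agent.CharacteristicVectors.GramTheta
import Fermat.Agent.ThetaLevel.Poisson

/-!
# Inversion of the theta series of a coset

For a positive definite real `G` on `ℝ^(2k)` and a point `a`, the series of `exp (π i z q (a + v))`
at `-1 / z` is `(-i z)^k / √det` times the dual series with the phases `exp (2 π i m a)`.
-/

set_option autoImplicit false

noncomputable section

namespace FA.ThetaLevel

open Complex Matrix Filter
open CharacteristicVectors (gramVal)
open scoped Real Topology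

variable {n : ℕ}

/-- `xᵀ G x`. -/
def realVal (G : Matrix (Fin n) (Fin n) ℝ) (x : Fin n → ℝ) : ℝ := x ⬝ᵥ G *ᵥ x

/-- The theta series of the coset `a + ℤⁿ`. -/
def cosetTheta (G : Matrix (Fin n) (Fin n) ℝ) (a : Fin n → ℝ) (z : ℂ) : ℂ :=
  ∑' v : Fin n → ℤ, cexp (π * I * realVal G (a + HeckeFE.ofInt v) * z)

/-- The dual series with phases. -/
def phaseTheta (G : Matrix (Fin n) (Fin n) ℝ) (a : Fin n → ℝ) (z : ℂ) : ℂ :=
  ∑' m : Fin n → ℤ, cexp (π * I * gramVal G m * z) * cexp (2 * π * I * ∑ i, (m i : ℂ) * (a i : ℂ))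

theorem gauss_realVal {G L : Matrix (Fin n) (Fin n) ℝ} (hL : Lᵀ * L = G) (c : ℝ)
    (x : Fin n → ℝ) : HeckeFE.gauss (c • L) x = Real.exp (-(π * c ^ 2 * realVal G x)) := by
  have h : ∑ i, ((c • L) *ᵥ x) i ^ 2 = c ^ 2 * realVal G x := by
    rw [realVal, ← hL, ← Matrix.mulVec_mulVec, Matrix.dotProduct_mulVec, Matrix.vecMul_transpose]
    simp only [dotProduct, Finset.mul_sum, Matrix.smul_mulVec, Pi.smul_apply, smul_eq_mul]
    exact Finset.sum_congr rfl fun i _ => by ring
  rw [HeckeFE.gauss, h]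
  ring_nf

/-- The square root and the inverse transpose of its multiples. -/
theorem exists_root {G : Matrix (Fin n) (Fin n) ℝ} (hG : G.PosDef) {c : ℝ} (hc : c ≠ 0) :
    ∃ L M : Matrix (Fin n) (Fin n) ℝ, Lᵀ * L = G ∧ Mᵀ * M = G⁻¹ ∧ |L.det| = √G.det ∧
      (c⁻¹ • M)ᵀ * (c • L) = 1 := by
  obtain ⟨L, hL, hdet⟩ := CharacteristicVectors.exists_gram_sqrt hG
  have hu : IsUnit L.det := isUnit_iff_ne_zero.2 fun h => by
    rw [h, abs_zero] at hdet
    exact (Real.sqrt_pos.2 hG.det_pos).ne hdet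
  refine ⟨L, (L⁻¹)ᵀ, hL, ?_, hdet, ?_⟩
  · rw [Matrix.transpose_transpose, Matrix.transpose_nonsing_inv, ← hL, Matrix.mul_inv_rev]
  · rw [Matrix.transpose_smul, Matrix.transpose_transpose, Matrix.smul_mul, Matrix.mul_smul,
      smul_smul, inv_mul_cancel₀ hc, Matrix.nonsing_inv_mul _ hu, one_smul]

theorem summable_exp_coset {G : Matrix (Fin n) (Fin n) ℝ} (hG : G.PosDef) (a : Fin n → ℝ) {b : ℝ}
    (hb : 0 < b) :
    Summable fun v : Fin n → ℤ => Real.exp (-(π * b * realVal G (a + HeckeFE.ofInt v))) := by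
  obtain ⟨L, M, hL, -, -, h⟩ := exists_root hG (Real.sqrt_pos.2 hb).ne'
  refine (HeckeFE.summable_gauss_shift h a).congr fun v => ?_
  rw [gauss_realVal hL, Real.sq_sqrt hb.le]

theorem realVal_nonneg {G : Matrix (Fin n) (Fin n) ℝ} (hG : G.PosDef) (x : Fin n → ℝ) :
    0 ≤ realVal G x := by
  simpa [realVal] using hG.posSemidef.dotProduct_mulVec_nonneg x

theorem summable_cosetTerm {G : Matrix (Fin n) (Fin n) ℝ} (hG : G.PosDef) (a : Fin n → ℝ) {z : ℂ}
    (hz : 0 < z.im) :
    Summable fun v : Fin n → ℤ => cexp (π * I * realVal G (a + HeckeFE.ofInt v) * z) :=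
  Summable.of_norm ((summable_exp_coset hG a hz).congr fun _ =>
    (CharacteristicVectors.norm_cexp_gram _ z).symm)

theorem norm_phase (a : Fin n → ℝ) (m : Fin n → ℤ) :
    ‖cexp (2 * π * I * ∑ i, (m i : ℂ) * (a i : ℂ))‖ = 1 := by
  rw [show 2 * (π : ℂ) * I * ∑ i, (m i : ℂ) * (a i : ℂ) =
    ((2 * π * ∑ i, (m i : ℝ) * a i : ℝ) : ℂ) * I by push_cast; ring]
  exact Complex.norm_exp_ofReal_mul_I _

theorem differentiableAt_cosetTheta {G : Matrix (Fin n) (Fin n) ℝ} (hG : G.PosDef)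
    (a : Fin n → ℝ) {z : ℂ} (hz : 0 < z.im) : DifferentiableAt ℂ (cosetTheta G a) z := by
  have hU : IsOpen {w : ℂ | z.im / 2 < w.im} := isOpen_lt continuous_const Complex.continuous_im
  refine (differentiableOn_tsum_of_summable_norm (summable_exp_coset hG a (half_pos hz))
    (fun _ => by fun_prop) hU fun v w hw => ?_).differentiableAt
    (hU.mem_nhds (show z.im / 2 < z.im by linarith))
  rw [CharacteristicVectors.norm_cexp_gram]
  exact Real.exp_le_exp.2 (neg_le_neg (mul_le_mul_of_nonneg_right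
    (mul_le_mul_of_nonneg_left (le_of_lt hw) Real.pi_pos.le) (realVal_nonneg hG _)))

theorem differentiableAt_phaseTheta {G : Matrix (Fin n) (Fin n) ℝ} (hG : G.PosDef)
    (a : Fin n → ℝ) {z : ℂ} (hz : 0 < z.im) : DifferentiableAt ℂ (phaseTheta G a) z := by
  have hU : IsOpen {w : ℂ | z.im / 2 < w.im} := isOpen_lt continuous_const Complex.continuous_im
  refine (differentiableOn_tsum_of_summable_norm
    (CharacteristicVectors.summable_exp_gram hG (half_pos hz)) (fun _ => by fun_prop) hU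
    fun v w hw => ?_).differentiableAt (hU.mem_nhds (show z.im / 2 < z.im by linarith))
  rw [norm_mul, norm_phase, mul_one, CharacteristicVectors.norm_cexp_gram]
  exact Real.exp_le_exp.2 (neg_le_neg (mul_le_mul_of_nonneg_right
    (mul_le_mul_of_nonneg_left (le_of_lt hw) Real.pi_pos.le)
    (CharacteristicVectors.gramVal_nonneg hG v)))

theorem inversion_on_ray {G : Matrix (Fin n) (Fin n) ℝ} (hG : G.PosDef) (a : Fin n → ℝ) {k : ℕ}
    (hn : n = 2 * k) {t : ℝ} (ht : 0 < t) :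
    cosetTheta G a ((t⁻¹ : ℝ) * I) =
      (((√G.det)⁻¹ : ℝ) : ℂ) * ((t : ℂ) ^ k * phaseTheta G⁻¹ a ((t : ℂ) * I)) := by
  obtain ⟨L, M, hL, hM, hdet, h⟩ := exists_root hG (Real.sqrt_pos.2 (inv_pos.2 ht)).ne'
  have hd : |(√t⁻¹ • L).det|⁻¹ = (√G.det)⁻¹ * t ^ k := by
    rw [Matrix.det_smul, Fintype.card_fin, abs_mul, hdet, abs_pow,
      abs_of_nonneg (Real.sqrt_nonneg _), mul_inv,
      show √t⁻¹ ^ n = (√t⁻¹ ^ 2) ^ k by rw [← pow_mul, ← hn], Real.sq_sqrt (inv_pos.2 ht).le,
      inv_pow, inv_inv, mul_comm]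
  have hP := HeckeFE.gauss_poisson_shift h a
  rw [hd] at hP
  calc cosetTheta G a ((t⁻¹ : ℝ) * I)
      = ∑' v : Fin n → ℤ, (HeckeFE.gauss (√t⁻¹ • L) (a + HeckeFE.ofInt v) : ℂ) :=
        tsum_congr fun v => by
          rw [gauss_realVal hL, Real.sq_sqrt (inv_pos.2 ht).le, Complex.ofReal_exp]
          push_cast
          ring_nf
          simp only [I_sq]
          ring_nf
    _ = _ := by
      rw [hP, Complex.ofReal_mul, Complex.ofReal_pow, phaseTheta, mul_assoc]
      congr 2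
      refine tsum_congr fun m => ?_
      rw [gauss_realVal hM, inv_pow, Real.sq_sqrt (inv_pos.2 ht).le, inv_inv, Complex.ofReal_exp,
        show gramVal G⁻¹ m = realVal G⁻¹ (HeckeFE.ofInt m) from rfl]
      push_cast
      ring_nf
      simp only [I_sq]
      ring_nf

/-- **Inversion of the series of a coset.** -/
theorem cosetTheta_inversion {G : Matrix (Fin n) (Fin n) ℝ} (hG : G.PosDef) (a : Fin n → ℝ)
    {k : ℕ} (hn : n = 2 * k) {z : ℂ} (hz : 0 < z.im) :
    cosetTheta G a (-1 / z) =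
      (((√G.det)⁻¹ : ℝ) : ℂ) * ((-I * z) ^ k * phaseTheta G⁻¹ a z) := by
  set U : Set ℂ := {w | 0 < w.im}
  have hUo : IsOpen U := isOpen_lt continuous_const Complex.continuous_im
  set F : ℂ → ℂ := fun w => cosetTheta G a (-1 / w) -
    (((√G.det)⁻¹ : ℝ) : ℂ) * ((-I * w) ^ k * phaseTheta G⁻¹ a w) with hF
  have hd : DifferentiableOn ℂ F U := fun w (hw : 0 < w.im) => by
    have h0 : w ≠ 0 := fun h => by simp [h] at hw
    exact (((differentiableAt_cosetTheta hG a (CharacteristicVectors.im_neg_one_div_pos hw)).comp w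
      ((differentiableAt_const _).div differentiableAt_id h0)).sub
      (((by fun_prop : DifferentiableAt ℂ (fun w : ℂ => (-I * w) ^ k) w).mul
        (differentiableAt_phaseTheta hG.inv a hw)).const_mul _)).differentiableWithinAt
  have hray : ∀ t : ℝ, 0 < t → F (t * I) = 0 := fun t ht => by
    have ht0 : (t : ℂ) ≠ 0 := ofReal_ne_zero.2 ht.ne'
    have e1 : (-1 : ℂ) / (t * I) = ((t⁻¹ : ℝ) : ℂ) * I := by
      rw [div_eq_iff (mul_ne_zero ht0 I_ne_zero), ofReal_inv, mul_mul_mul_comm,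
        inv_mul_cancel₀ ht0, one_mul, I_mul_I]
    simp only [hF, e1, inversion_on_ray hG a hn ht]
    rw [show -I * ((t : ℂ) * I) = (t : ℂ) by linear_combination -(t : ℂ) * I_sq, sub_self]
  have hI : Tendsto (fun t : ℝ => (t : ℂ) * I) (𝓝[≠] 1) (𝓝[≠] I) := by
    refine tendsto_nhdsWithin_iff.2 ⟨?_, eventually_nhdsWithin_of_forall fun t ht h => ht ?_⟩
    · have hc : Continuous fun t : ℝ => (t : ℂ) * I := by fun_prop
      simpa using (hc.tendsto 1).mono_left nhdsWithin_le_nhds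
    · simpa using congrArg Complex.im (Set.mem_singleton_iff.1 h)
  have hfr : ∃ᶠ w in 𝓝[≠] I, F w = 0 := by
    refine hI.frequently (Eventually.frequently ?_)
    filter_upwards [nhdsWithin_le_nhds (lt_mem_nhds (zero_lt_one' ℝ))] with t ht using hray t ht
  exact sub_eq_zero.1 ((hd.analyticOnNhd hUo).eqOn_zero_of_preconnected_of_frequently_eq_zero
    (convex_halfSpace_im_gt 0).isPreconnected (show I ∈ U by simp [U]) hfr hz)

end FA.ThetaLevel

end
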