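import Fermat.Agent.CharacteristicVectors.Shadow
import Fermat.Agent.ThetaLevel.Inversion
import Fermat.Agent.UnimodularTheta.Lattice

/-!
# The theta series near a rational point

Splitting the vectors by their residues modulo `q` and inverting each part, the series at
`p / q + z` becomes the dual series at `-1 / (q² z)` weighted by Gauss sums modulo `q`.
-/

set_option autoImplicit false
set_option linter.unusedSectionVars false

noncomputable section

namespace FA.ThetaLevel

open Complex Matrix Filter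
open CharacteristicVectors (gramVal latTheta toReal)
open IndefiniteUnimodular (val EvenForm)
open scoped Real Topology

variable {n : ℕ} {A B : Matrix (Fin n) (Fin n) ℤ} {N : ℕ}

/-- Symmetric, with even diagonal and positive values. -/
def EvenPositive (A : Matrix (Fin n) (Fin n) ℤ) : Prop :=
  A.IsSymm ∧ (∀ i, Even (A i i)) ∧ ∀ v : Fin n → ℤ, v ≠ 0 → 0 < v ⬝ᵥ (A *ᵥ v)

/-- `B = N A⁻¹` is integral with even diagonal. -/
def IsLevelDual (A B : Matrix (Fin n) (Fin n) ℤ) (N : ℕ) : Prop :=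
  A * B = (N : ℤ) • 1 ∧ ∀ i, Even (B i i)

theorem EvenPositive.evenForm (hA : EvenPositive A) : EvenForm A :=
  (IndefiniteUnimodular.evenForm_iff_diag hA.1).2 hA.2.1

theorem EvenPositive.val_nonneg (hA : EvenPositive A) (v : Fin n → ℤ) : 0 ≤ val A v := by
  rcases eq_or_ne v 0 with rfl | hv
  · simp
  · exact (hA.2.2 v hv).le

theorem EvenPositive.det_ne_zero (hA : EvenPositive A) : A.det ≠ 0 := fun h => by
  obtain ⟨v, hv, h0⟩ := Matrix.exists_mulVec_eq_zero_iff.2 h
  have := hA.2.2 v hv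
  rw [h0, dotProduct_zero] at this
  exact lt_irrefl _ this

theorem EvenPositive.posDef (hA : EvenPositive A) : (toReal A).PosDef := by
  refine (UnimodularTheta.posSemidef_realMat hA.1 hA.val_nonneg).posDef_iff_det_ne_zero.2 ?_
  show (toReal A).det ≠ 0
  rw [CharacteristicVectors.det_toReal]
  exact_mod_cast hA.det_ne_zero

theorem EvenPositive.det_pos (hA : EvenPositive A) : 0 < A.det := by
  have := hA.posDef.det_pos
  rw [CharacteristicVectors.det_toReal] at this
  exact_mod_cast this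

theorem IsLevelDual.mul_swap (hB : IsLevelDual A B N) (hA : EvenPositive A) :
    B * A = (N : ℤ) • 1 := by
  have hz : A * (B * A - (N : ℤ) • 1) = 0 := by
    rw [Matrix.mul_sub, ← Matrix.mul_assoc, hB.1, Matrix.smul_mul, Matrix.one_mul,
      Matrix.mul_smul, Matrix.mul_one, sub_self]
  have hz' := congrArg (fun X => A.adjugate * X) hz
  simp only [← Matrix.mul_assoc, Matrix.adjugate_mul, Matrix.smul_mul, Matrix.one_mul,
    Matrix.mul_zero] at hz'
  exact sub_eq_zero.1 ((smul_eq_zero.1 hz').resolve_left hA.det_ne_zero)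

theorem IsLevelDual.symm (hB : IsLevelDual A B N) (hA : EvenPositive A) : B.IsSymm := by
  have h := congrArg Matrix.transpose hB.1
  rw [transpose_mul, hA.1.eq, transpose_smul, transpose_one] at h
  have hz : (Bᵀ - B) * A = 0 := by rw [Matrix.sub_mul, h, hB.mul_swap hA, sub_self]
  have hz' := congrArg (fun X => X * A.adjugate) hz
  simp only [Matrix.mul_assoc, Matrix.mul_adjugate, Matrix.mul_smul, Matrix.mul_one,
    Matrix.zero_mul] at hz'
  exact sub_eq_zero.1 ((smul_eq_zero.1 hz').resolve_left hA.det_ne_zero)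

theorem IsLevelDual.evenForm (hB : IsLevelDual A B N) (hA : EvenPositive A) : EvenForm B :=
  (IndefiniteUnimodular.evenForm_iff_diag (hB.symm hA)).2 hB.2

theorem inv_toReal (hB : IsLevelDual A B N) (hN : 0 < N) :
    (toReal A)⁻¹ = ((N : ℝ)⁻¹) • toReal B := by
  refine inv_eq_right_inv ?_
  rw [Matrix.mul_smul, ← CharacteristicVectors.toReal_mul, hB.1, toReal, Matrix.map_smul' _ _ _
    (by simp), Matrix.map_one _ Int.cast_zero Int.cast_one, Int.cast_natCast, smul_smul,
    inv_mul_cancel₀ (Nat.cast_ne_zero.2 hN.ne'), one_smul]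

theorem gramVal_inv (hB : IsLevelDual A B N) (hN : 0 < N) (m : Fin n → ℤ) :
    gramVal (toReal A)⁻¹ m = (val B m : ℝ) / N := by
  rw [inv_toReal hB hN, ← CharacteristicVectors.gramVal_toReal, gramVal, gramVal,
    Matrix.smul_mulVec, dotProduct_smul, smul_eq_mul, div_eq_inv_mul]

/-- `∑ exp (π i (p A[r] + 2 m r) / q)` over `r` modulo `q`. -/
def qSum (A : Matrix (Fin n) (Fin n) ℤ) (p : ℤ) (q : ℕ) [NeZero q] (m : Fin n → ℤ) : ℂ :=
  ∑ r : Fin n → ZMod q, cexp (π * I *
    ((p * val A (fun i => (r i).val) + 2 * (m ⬝ᵥ fun i => ((r i).val : ℤ)) : ℤ) : ℂ) / q)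

theorem norm_qSum_le (p : ℤ) (q : ℕ) [NeZero q] (m : Fin n → ℤ) :
    ‖qSum A p q m‖ ≤ (q : ℝ) ^ n := by
  refine (norm_sum_le _ _).trans (le_of_eq ?_)
  rw [Finset.sum_eq_card_nsmul (b := (1 : ℝ)) fun r _ => ?_, nsmul_one]
  · simp
  · generalize (p * val A (fun i => (r i).val) + 2 * (m ⬝ᵥ fun i => ((r i).val : ℤ)) : ℤ) = e
    rw [show π * I * (e : ℂ) / q = ((π * e / q : ℝ) : ℂ) * I by push_cast; ring]
    exact Complex.norm_exp_ofReal_mul_I _

/-- Integral vectors by residues and quotients. -/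
def residueEquiv (n q : ℕ) [NeZero q] :
    (Fin n → ZMod q) × (Fin n → ℤ) ≃ (Fin n → ℤ) where
  toFun x := fun i => ((x.1 i).val : ℤ) + q * x.2 i
  invFun v := (fun i => (v i : ZMod q), fun i => v i / q)
  left_inv x := by
    have hq : (q : ℤ) ≠ 0 := by exact_mod_cast NeZero.ne q
    refine Prod.ext (funext fun i => ?_) (funext fun i => ?_)
    · simp
    · show (((x.1 i).val : ℤ) + q * x.2 i) / q = x.2 i
      rw [Int.add_mul_ediv_left _ _ hq, Int.ediv_eq_zero_of_lt (by positivity)
        (by exact_mod_cast ZMod.val_lt _), zero_add]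
  right_inv v := funext fun i => by simp only [ZMod.val_intCast, Int.emod_add_mul_ediv]

theorem exp_congr_int {q : ℕ} (hq : q ≠ 0) {a b : ℤ} (h : 2 * (q : ℤ) ∣ a - b) :
    cexp (π * I * (a : ℂ) / q) = cexp (π * I * (b : ℂ) / q) := by
  obtain ⟨j, hj⟩ := h
  refine exp_eq_exp_iff_exists_int.2 ⟨j, ?_⟩
  rw [show a = b + 2 * q * j by linarith]
  have : (q : ℂ) ≠ 0 := Nat.cast_ne_zero.2 hq
  push_cast
  field_simp

theorem val_add_mul (hA : EvenPositive A) (p : ℤ) (q : ℤ) (r u : Fin n → ℤ) :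
    2 * q ∣ p * val A (r + q • u) - p * val A r := by
  obtain ⟨e, he⟩ := even_iff_two_dvd.1 (hA.evenForm u)
  refine ⟨p * (r ⬝ᵥ (A *ᵥ u) + q * e), ?_⟩
  rw [IndefiniteUnimodular.val_add hA.1, IndefiniteUnimodular.val_smul, he, Matrix.mulVec_smul,
    dotProduct_smul, smul_eq_mul]
  ring

theorem summable_latTheta (hA : EvenPositive A) {z : ℂ} (hz : 0 < z.im) :
    Summable fun v : Fin n → ℤ => cexp (π * I * val A v * z) :=
  (CharacteristicVectors.summable_gramTerm hA.posDef hz).congr fun v => by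
    rw [CharacteristicVectors.gramVal_toReal, ofReal_intCast]

theorem summable_dual (hA : EvenPositive A) (hB : IsLevelDual A B N) (hN : 0 < N) {z : ℂ}
    (hz : 0 < z.im) :
    Summable fun m : Fin n → ℤ => cexp (π * I * ((val B m : ℂ) / N) * z) :=
  (CharacteristicVectors.summable_gramTerm hA.posDef.inv hz).congr fun v => by
    rw [gramVal_inv hB hN, ofReal_div, ofReal_intCast, ofReal_natCast]

/-- **Near a rational point.** -/
theorem theta_translate (hA : EvenPositive A) (hB : IsLevelDual A B N) (hN : 0 < N) {k : ℕ}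
    (hn : n = 2 * k) (p : ℤ) (q : ℕ) [NeZero q] {z : ℂ} (hz : 0 < z.im) :
    latTheta A ((p : ℂ) / q + z) = (((√(A.det : ℝ))⁻¹ : ℝ) : ℂ) * (I / ((q : ℂ) ^ 2 * z)) ^ k *
      ∑' m : Fin n → ℤ, qSum A p q m *
        cexp (π * I * ((val B m : ℂ) / N) * (-1 / ((q : ℂ) ^ 2 * z))) := by
  have hqC : (q : ℂ) ≠ 0 := Nat.cast_ne_zero.2 (NeZero.ne q)
  have hzne : z ≠ 0 := fun h => by simp [h] at hz
  obtain ⟨w, hw⟩ : ∃ w : ℂ, w = -1 / ((q : ℂ) ^ 2 * z) := ⟨_, rfl⟩
  have hwim : 0 < w.im := by
    rw [hw]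
    refine CharacteristicVectors.im_neg_one_div_pos ?_
    rw [show ((q : ℂ) ^ 2 * z) = ((q : ℝ) ^ 2 : ℝ) * z by push_cast; ring, Complex.im_ofReal_mul]
    have := NeZero.pos q
    positivity
  have hsum : Summable fun x : (Fin n → ZMod q) × (Fin n → ℤ) =>
      cexp (π * I * val A (residueEquiv n q x) * ((p : ℂ) / q + z)) :=
    (summable_latTheta hA (by simpa [Complex.div_natCast_im] using hz)).comp_injective
      (residueEquiv n q).injective
  rw [latTheta, ← (residueEquiv n q).tsum_eq, Summable.tsum_prod hsum, tsum_fintype, ← hw]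
  have hpart : ∀ r : Fin n → ZMod q,
      ∑' u : Fin n → ℤ, cexp (π * I * val A (residueEquiv n q (r, u)) * ((p : ℂ) / q + z)) =
        cexp (π * I * ((p * val A (fun i => (r i).val) : ℤ) : ℂ) / q) *
          cosetTheta (toReal A) (fun i => ((r i).val : ℝ) / q) (-1 / w) := fun r => by
    rw [cosetTheta, ← tsum_mul_left]
    refine tsum_congr fun u => ?_
    obtain ⟨R, hR⟩ : ∃ R : Fin n → ℤ, R = fun i => ((r i).val : ℤ) := ⟨_, rfl⟩
    have hv : residueEquiv n q (r, u) = R + (q : ℤ) • u := funext fun i => by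
      simp [residueEquiv, hR]
    have hreal : realVal (toReal A) ((fun i => ((r i).val : ℝ) / q) + HeckeFE.ofInt u) =
        (val A (R + (q : ℤ) • u) : ℝ) / (q : ℝ) ^ 2 := by
      have e : ((fun i => ((r i).val : ℝ) / q) + HeckeFE.ofInt u) =
          (q : ℝ)⁻¹ • HeckeFE.ofInt (R + (q : ℤ) • u) := funext fun i => by
        have : (q : ℝ) ≠ 0 := Nat.cast_ne_zero.2 (NeZero.ne q)
        simp [HeckeFE.ofInt, hR]
        field_simp
      rw [e, ← CharacteristicVectors.gramVal_toReal, realVal, gramVal, Matrix.mulVec_smul,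
        smul_dotProduct, dotProduct_smul, smul_eq_mul, smul_eq_mul]
      ring
    rw [hreal, hv, ← hR, show -1 / w = (q : ℂ) ^ 2 * z by rw [hw]; field_simp,
      ← exp_congr_int (NeZero.ne q) (val_add_mul hA p q R u), ← Complex.exp_add]
    congr 1
    push_cast
    field_simp
  simp only [hpart, cosetTheta_inversion hA.posDef _ hn hwim, CharacteristicVectors.det_toReal]
  rw [show -I * w = I / ((q : ℂ) ^ 2 * z) by rw [hw]; ring]
  have hterm : ∀ (r : Fin n → ZMod q) (m : Fin n → ℤ),
      cexp (π * I * ((p * val A (fun i => (r i).val) : ℤ) : ℂ) / q) *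
        (cexp (π * I * gramVal (toReal A)⁻¹ m * w) *
          cexp (2 * π * I * ∑ i, (m i : ℂ) * ((((r i).val : ℝ) / q : ℝ) : ℂ))) =
      cexp (π * I *
        ((p * val A (fun i => (r i).val) + 2 * (m ⬝ᵥ fun i => ((r i).val : ℤ)) : ℤ) : ℂ) / q) *
          cexp (π * I * ((val B m : ℂ) / N) * w) := fun r m => by
    rw [← Complex.exp_add, ← Complex.exp_add, ← Complex.exp_add, gramVal_inv hB hN]
    congr 1
    simp only [dotProduct]
    push_cast
    simp only [← mul_div_assoc, ← Finset.sum_div]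
    field_simp
    ring
  have hs : ∀ r : Fin n → ZMod q, Summable fun m : Fin n → ℤ => cexp (π * I *
      ((p * val A (fun i => (r i).val) + 2 * (m ⬝ᵥ fun i => ((r i).val : ℤ)) : ℤ) : ℂ) / q) *
        cexp (π * I * ((val B m : ℂ) / N) * w) := fun r =>
    Summable.of_norm ((summable_dual hA hB hN hwim).norm.congr fun m => by
      generalize (p * val A (fun i => (r i).val) + 2 * (m ⬝ᵥ fun i => ((r i).val : ℤ)) : ℤ) = e
      rw [norm_mul, show π * I * (e : ℂ) / q = ((π * e / q : ℝ) : ℂ) * I by push_cast; ring,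
        Complex.norm_exp_ofReal_mul_I, one_mul])
  simp only [qSum, Finset.sum_mul]
  rw [Summable.tsum_finsetSum fun r _ => hs r, Finset.mul_sum]
  refine Finset.sum_congr rfl fun r _ => ?_
  rw [← tsum_congr (hterm r), phaseTheta, tsum_mul_left]
  ring

end FA.ThetaLevel

end
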